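import Mathlib
import Fermat.Prelude.Def_ModularForm_HeckeOperator

/-!
# Hermite-type factorisation for S22

For an integral upper triangular matrix `!![a, b; 0, d]` with `0 < a`, `0 < d` and `g ∈ SL(2, ℤ)`
there are `g' ∈ SL(2, ℤ)` and an integral upper triangular `!![a', b'; 0, d']` with `0 < a'`,
`0 < d'` such that `!![a, b; 0, d] * g = g' * !![a', b'; 0, d']`.
-/

set_option autoImplicit false

namespace Fermat.Agent.S22

open Matrix
open scoped MatrixGroups

/-- Integer-matrix Hermite factorisation: any integral `2 × 2` matrix `M` with positive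
determinant is `g' * !![a', b'; 0, d']` with `g' ∈ SL(2, ℤ)` and `0 < a'`, `0 < d'`. -/
theorem exists_SL2_mul_upperTriangular (M : Matrix (Fin 2) (Fin 2) ℤ) (hM : 0 < M.det) :
    ∃ (g' : SL(2, ℤ)) (a' b' d' : ℤ), 0 < a' ∧ 0 < d' ∧ a' * d' = M.det ∧
      M = (g' : Matrix (Fin 2) (Fin 2) ℤ) * !![a', b'; 0, d'] := by
  set p := M 0 0 with hp
  set r := M 1 0 with hr
  set q := M 0 1 with hq
  set s := M 1 1 with hs
  have hdet : M.det = p * s - q * r := by
    rw [Matrix.det_fin_two]
  have hne : ¬ (p = 0 ∧ r = 0) := by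
    rintro ⟨h1, h2⟩
    rw [hdet, h1, h2] at hM
    simp at hM
  -- gcd of first column
  set e : ℤ := (Int.gcd p r : ℤ) with he
  have he_pos : 0 < e := by
    have : Int.gcd p r ≠ 0 := by
      intro h
      rw [Int.gcd_eq_zero_iff] at h
      exact hne h
    have h0 : 0 < Int.gcd p r := Nat.pos_of_ne_zero this
    rw [he]
    exact_mod_cast h0
  obtain ⟨p', hp'⟩ : e ∣ p := Int.gcd_dvd_left p r
  obtain ⟨r', hr'⟩ : e ∣ r := Int.gcd_dvd_right p r
  -- Bezout for p, r
  have hbez : p * Int.gcdA p r + r * Int.gcdB p r = e := (Int.gcd_eq_gcd_ab p r).symm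
  set u := Int.gcdA p r with hu
  set v := Int.gcdB p r with hv
  have hbez' : p' * u + r' * v = 1 := by
    have h1 : e * (p' * u + r' * v) = e * 1 := by
      rw [mul_one]
      calc e * (p' * u + r' * v) = (e * p') * u + (e * r') * v := by ring
        _ = p * u + r * v := by rw [← hp', ← hr']
        _ = e := hbez
    exact mul_left_cancel₀ he_pos.ne' h1
  -- the SL2 element
  let g' : SL(2, ℤ) := ⟨!![p', -v; r', u], by
    rw [Matrix.det_fin_two_of]; linarith⟩
  refine ⟨g', e, u * q + v * s, p' * s - r' * q, he_pos, ?_, ?_, ?_⟩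
  · -- positivity of d'
    have h1 : e * (p' * s - r' * q) = M.det := by
      rw [hdet, hp', hr']; ring
    have h2 : 0 < e * (p' * s - r' * q) := h1 ▸ hM
    exact (mul_pos_iff_of_pos_left he_pos).mp h2
  · rw [hdet, hp', hr']; ring
  · have hM' : M = !![p, q; r, s] := Matrix.eta_fin_two M
    have hg' : (g' : Matrix (Fin 2) (Fin 2) ℤ) = !![p', -v; r', u] := rfl
    rw [hg', Matrix.mul_fin_two, hM']
    have e1 : p = p' * e + -v * 0 := by rw [hp']; ring
    have e2 : q = p' * (u * q + v * s) + -v * (p' * s - r' * q) := by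
      linear_combination (-q) * hbez'
    have e3 : r = r' * e + u * 0 := by rw [hr']; ring
    have e4 : s = r' * (u * q + v * s) + u * (p' * s - r' * q) := by
      linear_combination (-s) * hbez'
    ext i j
    fin_cases i <;> fin_cases j
    · exact e1
    · exact e2
    · exact e3
    · exact e4

/-- Hermite factorisation on integer matrices: `!![a, b; 0, d] * g = g' * !![a', b'; 0, d']`. -/
theorem hermite_int (a b d : ℤ) (ha : 0 < a) (hd : 0 < d) (g : SL(2, ℤ)) :
    ∃ (g' : SL(2, ℤ)) (a' b' d' : ℤ), 0 < a' ∧ 0 < d' ∧ a' * d' = a * d ∧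
      !![a, b; 0, d] * (g : Matrix (Fin 2) (Fin 2) ℤ) =
        (g' : Matrix (Fin 2) (Fin 2) ℤ) * !![a', b'; 0, d'] := by
  have hdet : (!![a, b; 0, d] * (g : Matrix (Fin 2) (Fin 2) ℤ)).det = a * d := by
    rw [Matrix.det_mul, g.det_coe, mul_one, Matrix.det_fin_two_of]; ring
  obtain ⟨g', a', b', d', ha', hd', hprod, h⟩ :=
    exists_SL2_mul_upperTriangular (!![a, b; 0, d] * (g : Matrix (Fin 2) (Fin 2) ℤ))
      (by rw [hdet]; exact mul_pos ha hd)
  exact ⟨g', a', b', d', ha', hd', hprod.trans hdet, h⟩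

/-- Hermite factorisation in `GL (Fin 2) ℝ`, together with the same identity on integer
matrices. The proofs of `a * d ≠ 0` fed to `ModularForm.upperTriangularGL` are arbitrary. -/
theorem hermite (a b d : ℤ) (ha : 0 < a) (hd : 0 < d) (g : SL(2, ℤ)) :
    ∃ (g' : SL(2, ℤ)) (a' b' d' : ℤ), 0 < a' ∧ 0 < d' ∧ a' * d' = a * d ∧
      !![a, b; 0, d] * (g : Matrix (Fin 2) (Fin 2) ℤ) =
        (g' : Matrix (Fin 2) (Fin 2) ℤ) * !![a', b'; 0, d'] ∧
      ∀ (h : (a : ℝ) * (d : ℝ) ≠ 0) (h' : (a' : ℝ) * (d' : ℝ) ≠ 0),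
        ModularForm.upperTriangularGL (a : ℝ) (b : ℝ) (d : ℝ) h *
            Matrix.SpecialLinearGroup.mapGL ℝ g =
          Matrix.SpecialLinearGroup.mapGL ℝ g' *
            ModularForm.upperTriangularGL (a' : ℝ) (b' : ℝ) (d' : ℝ) h' := by
  obtain ⟨g', a', b', d', ha', hd', hprod, hmat⟩ := hermite_int a b d ha hd g
  refine ⟨g', a', b', d', ha', hd', hprod, hmat, fun h h' => ?_⟩
  apply Matrix.GeneralLinearGroup.ext
  intro i j
  have hcast := congrArg (fun A : Matrix (Fin 2) (Fin 2) ℤ => (A i j : ℝ)) hmat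
  simp only [Matrix.mul_apply, Fin.sum_univ_two] at hcast
  rw [Matrix.GeneralLinearGroup.coe_mul, Matrix.GeneralLinearGroup.coe_mul,
    ModularForm.val_upperTriangularGL, ModularForm.val_upperTriangularGL]
  simp only [Matrix.mul_apply, Fin.sum_univ_two, Matrix.SpecialLinearGroup.mapGL_coe_matrix,
    Matrix.map_apply, algebraMap_int_eq, Int.coe_castRingHom]
  push_cast at hcast
  fin_cases i <;> fin_cases j <;> simpa using hcast

end Fermat.Agent.S22
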