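import Mathlib

/-!
# Abstract finiteness lemma for S22

If a set `𝒢` of `ℂ`-linear endomorphisms of `V` preserves (by precomposition) a finitely generated
`ℤ`-lattice `Λ` of linear functionals on `V` that separates the points of `V`, then the
`ℤ`-algebra generated by `𝒢` is a finitely generated `ℤ`-module.
-/

set_option autoImplicit false

namespace Fermat.Agent.S22

open Module

section Abstract

variable {K : Type*} [Field K] [CharZero K] {V : Type*} [AddCommGroup V] [Module K V]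

/-- Every element of `Algebra.adjoin ℤ 𝒢` preserves the lattice `Λ` by precomposition. -/
theorem comp_mem_of_mem_adjoin (Λ : Submodule ℤ (Module.Dual K V)) (𝒢 : Set (Module.End K V))
    (hstab : ∀ g ∈ 𝒢, ∀ ξ ∈ Λ, ξ ∘ₗ g ∈ Λ) {t : Module.End K V} (ht : t ∈ Algebra.adjoin ℤ 𝒢) :
    ∀ ξ ∈ Λ, ξ ∘ₗ t ∈ Λ := by
  induction ht using Algebra.adjoin_induction with
  | mem g hg => exact hstab g hg
  | algebraMap n =>
    intro ξ hξ
    have h : ξ ∘ₗ (algebraMap ℤ (Module.End K V) n) = n • ξ := by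
      ext v
      simp [Algebra.algebraMap_eq_smul_one]
    rw [h]
    exact Λ.smul_mem n hξ
  | add s t _ _ hs ht =>
    intro ξ hξ
    rw [LinearMap.comp_add]
    exact Λ.add_mem (hs ξ hξ) (ht ξ hξ)
  | mul s t _ _ hs ht =>
    intro ξ hξ
    have h : ξ ∘ₗ (s * t) = (ξ ∘ₗ s) ∘ₗ t := rfl
    rw [h]
    exact ht _ (hs ξ hξ)

/-- The action of `Algebra.adjoin ℤ 𝒢` on the lattice `Λ` by precomposition, as a `ℤ`-linear map
into `End_ℤ Λ`. -/
noncomputable def latticeAction (Λ : Submodule ℤ (Module.Dual K V)) (𝒢 : Set (Module.End K V))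
    (hstab : ∀ g ∈ 𝒢, ∀ ξ ∈ Λ, ξ ∘ₗ g ∈ Λ) :
    ↥(Algebra.adjoin ℤ 𝒢) →ₗ[ℤ] (↥Λ →ₗ[ℤ] ↥Λ) where
  toFun t :=
    { toFun := fun ξ => ⟨(ξ : Module.Dual K V) ∘ₗ (t : Module.End K V),
        comp_mem_of_mem_adjoin Λ 𝒢 hstab t.2 ξ ξ.2⟩
      map_add' := fun ξ η => Subtype.ext (by simp [LinearMap.add_comp])
      map_smul' := fun n ξ => Subtype.ext (by simp [LinearMap.smul_comp]) }
  map_add' s t := by
    ext ξ : 2
    simp [LinearMap.comp_add]
  map_smul' n t := by
    ext ξ : 2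
    refine LinearMap.ext fun v => ?_
    show (ξ : Module.Dual K V) (((n • t : ↥(Algebra.adjoin ℤ 𝒢)) : Module.End K V) v) =
      (n • ((ξ : Module.Dual K V) ∘ₗ (t : Module.End K V))) v
    rw [SetLike.val_smul, LinearMap.smul_apply, LinearMap.smul_apply, LinearMap.comp_apply,
      map_zsmul]

theorem latticeAction_apply_coe (Λ : Submodule ℤ (Module.Dual K V)) (𝒢 : Set (Module.End K V))
    (hstab : ∀ g ∈ 𝒢, ∀ ξ ∈ Λ, ξ ∘ₗ g ∈ Λ) (t : ↥(Algebra.adjoin ℤ 𝒢)) (ξ : ↥Λ) :
    ((latticeAction Λ 𝒢 hstab t ξ : ↥Λ) : Module.Dual K V) =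
      (ξ : Module.Dual K V) ∘ₗ (t : Module.End K V) := rfl

theorem latticeAction_injective (Λ : Submodule ℤ (Module.Dual K V)) (𝒢 : Set (Module.End K V))
    (hstab : ∀ g ∈ 𝒢, ∀ ξ ∈ Λ, ξ ∘ₗ g ∈ Λ)
    (hsep : ∀ v : V, (∀ ξ ∈ Λ, ξ v = 0) → v = 0) :
    Function.Injective (latticeAction Λ 𝒢 hstab) := by
  rw [← LinearMap.ker_eq_bot, LinearMap.ker_eq_bot']
  intro t ht
  apply Subtype.ext
  apply LinearMap.ext
  intro v
  apply hsep
  intro ξ hξ
  have h := congrArg (fun f : ↥Λ →ₗ[ℤ] ↥Λ => ((f ⟨ξ, hξ⟩ : ↥Λ) : Module.Dual K V) v) ht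
  simpa [latticeAction_apply_coe] using h

/-- **Abstract finiteness lemma.** A set `𝒢` of endomorphisms of a vector space `V` over a field
of characteristic zero which preserves, by precomposition, a finitely generated `ℤ`-lattice `Λ`
of functionals separating the points of `V`, generates a `ℤ`-algebra which is finitely generated
as a `ℤ`-module. -/
theorem finite_adjoin_of_stable_lattice (Λ : Submodule ℤ (Module.Dual K V)) (hfg : Λ.FG)
    (hsep : ∀ v : V, (∀ ξ ∈ Λ, ξ v = 0) → v = 0)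
    (𝒢 : Set (Module.End K V)) (hstab : ∀ g ∈ 𝒢, ∀ ξ ∈ Λ, ξ ∘ₗ g ∈ Λ) :
    Module.Finite ℤ ↥(Algebra.adjoin ℤ 𝒢) := by
  have : Module.Finite ℤ ↥Λ := Module.Finite.iff_fg.mpr hfg
  have : IsAddTorsionFree (Module.Dual K V) := .of_isTorsionFree K _
  have : Module.Free ℤ ↥Λ := Module.free_of_finite_type_torsion_free'
  have : Module.Finite ℤ (↥Λ →ₗ[ℤ] ↥Λ) := inferInstance
  exact Module.Finite.of_injective (latticeAction Λ 𝒢 hstab)
    (latticeAction_injective Λ 𝒢 hstab hsep)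

/-- Variant: the lattice is the `ℤ`-span of a finite family of functionals, and stability only
needs to be checked on the family. -/
theorem finite_adjoin_of_stable_family {ι : Type*} [Finite ι] (ξ : ι → Module.Dual K V)
    (hsep : ∀ v : V, (∀ i, ξ i v = 0) → v = 0)
    (𝒢 : Set (Module.End K V))
    (hstab : ∀ g ∈ 𝒢, ∀ i, ξ i ∘ₗ g ∈ Submodule.span ℤ (Set.range ξ)) :
    Module.Finite ℤ ↥(Algebra.adjoin ℤ 𝒢) := by
  refine finite_adjoin_of_stable_lattice (Submodule.span ℤ (Set.range ξ))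
    (Submodule.fg_span (Set.finite_range ξ)) ?_ 𝒢 ?_
  · intro v hv
    exact hsep v fun i => hv (ξ i) (Submodule.subset_span (Set.mem_range_self i))
  · intro g hg η hη
    induction hη using Submodule.span_induction with
    | mem x hx =>
      obtain ⟨i, rfl⟩ := hx
      exact hstab g hg i
    | zero => simp
    | add x y _ _ hx hy =>
      rw [LinearMap.add_comp]
      exact Submodule.add_mem _ hx hy
    | smul n x _ hx =>
      rw [LinearMap.smul_comp]
      exact Submodule.smul_mem _ n hx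

end Abstract

end Fermat.Agent.S22
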