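/-
S22 team: shared definitions (design owner: helper5).  No sorries here.

Conventions: weight `k = d + 2` with `d : ℕ`.  For an admissible `h : ℍ → ℂ`
* `P r h z = -∫_z^{i∞} h(w) w^r dw`   (primitive of `h(z) z^r`, tending to 0 at `i∞`)
* `E d h x y z = -∫_z^{i∞} h(w) (x - w y)^d dw = ∑_r C(d,r) x^(d-r) (-y)^r P r h z`.
-/
import Mathlib

set_option autoImplicit false

noncomputable section

open UpperHalfPlane ModularForm Filter Complex MeasureTheory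
open scoped MatrixGroups ModularForm Manifold Topology

namespace Fermat.Agent.S22

/-- Admissible functions: holomorphic on `ℍ`, exponentially decaying at `i∞`. -/
def IsAdm (h : ℍ → ℂ) : Prop :=
  MDifferentiable 𝓘(ℂ) 𝓘(ℂ) h ∧
    ∃ c : ℝ, 0 < c ∧ h =O[atImInfty] fun τ : ℍ => Real.exp (-c * τ.im)

/-- `P r h z = -∫_{t>0} h(z+it) (z+it)^r i dt`. -/
def P (r : ℕ) (h : ℍ → ℂ) (z : ℍ) : ℂ :=
  -∫ t in Set.Ioi (0 : ℝ), h (ofComplex ((z : ℂ) + t * Complex.I)) * ((z : ℂ) + t * Complex.I) ^ r * Complex.I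

/-- `E d h x y z = ∑_r C(d,r) x^(d-r) (-y)^r P r h z`, a primitive of `h(z) (x - z y)^d`. -/
def E (d : ℕ) (h : ℍ → ℂ) (x y : ℂ) (z : ℍ) : ℂ :=
  ∑ r ∈ Finset.range (d + 1), (d.choose r : ℂ) * x ^ (d - r) * (-y) ^ r * P r h z

/-- `Nice n h`: every `SL(2,ℤ)`-translate (weight `n+2`) of `h` is admissible.  Cusp forms of weight
`n+2` on `Γ₀(N)` are nice; niceness is stable under `∣[n+2] g` for `g : SL(2,ℤ)`. -/
def Nice (n : ℕ) (h : ℍ → ℂ) : Prop :=
  ∀ g : SL(2, ℤ), IsAdm (h ∣[(n : ℤ) + 2] g)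

end Fermat.Agent.S22
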