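/-
S22 analytic half: admissibility / niceness lemmas (I1).  Imports only Mathlib + Defs.
-/
import Mathlib
import Fermat.Prelude.Def_ModularForm_HeckeOperator
import Fermat.Agent.S22.Defs

set_option autoImplicit false

noncomputable section

open UpperHalfPlane ModularForm Filter Complex MeasureTheory
open scoped MatrixGroups ModularForm Manifold Topology

namespace Fermat.Agent.S22

theorem isAdm_zero : IsAdm (0 : ℍ → ℂ) := by
  refine ⟨fun _ => mdifferentiableAt_const, 1, one_pos, ?_⟩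
  exact Asymptotics.isBigO_zero _ _

/-- Weakening of the decay constant in the exponential bound at `i∞`. -/
theorem anAdm_isBigO_mono {h : ℍ → ℂ} {c c' : ℝ} (hc : c' ≤ c)
    (H : h =O[atImInfty] fun τ : ℍ => Real.exp (-c * τ.im)) :
    h =O[atImInfty] fun τ : ℍ => Real.exp (-c' * τ.im) := by
  refine H.trans (Asymptotics.IsBigO.of_bound 1 (Eventually.of_forall fun τ => ?_))
  rw [Real.norm_of_nonneg (Real.exp_pos _).le, Real.norm_of_nonneg (Real.exp_pos _).le, one_mul]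
  apply Real.exp_le_exp.mpr
  have := τ.im_pos
  nlinarith

theorem IsAdm.add {h₁ h₂ : ℍ → ℂ} (H₁ : IsAdm h₁) (H₂ : IsAdm h₂) : IsAdm (h₁ + h₂) := by
  obtain ⟨hd₁, c₁, hc₁, hO₁⟩ := H₁
  obtain ⟨hd₂, c₂, hc₂, hO₂⟩ := H₂
  refine ⟨hd₁.add hd₂, min c₁ c₂, lt_min hc₁ hc₂, ?_⟩
  exact (anAdm_isBigO_mono (min_le_left _ _) hO₁).add (anAdm_isBigO_mono (min_le_right _ _) hO₂)

theorem IsAdm.smul {h : ℍ → ℂ} (H : IsAdm h) (c : ℂ) : IsAdm (c • h) := by
  obtain ⟨hd, c₁, hc₁, hO⟩ := H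
  exact ⟨hd.const_smul c, c₁, hc₁, hO.const_smul_left c⟩

theorem isAdm_sum {ι : Type*} (s : Finset ι) (h : ι → ℍ → ℂ) (H : ∀ i ∈ s, IsAdm (h i)) :
    IsAdm (∑ i ∈ s, h i) := by
  classical
  induction s using Finset.induction_on with
  | empty => simpa using isAdm_zero
  | insert i t hi IH =>
    rw [Finset.sum_insert hi]
    exact (H i (Finset.mem_insert_self i t)).add
      (IH fun j hj => H j (Finset.mem_insert_of_mem hj))

/-- Slashing by an upper-triangular real matrix of positive determinant preserves admissibility. -/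
theorem IsAdm.slash_upper (k : ℤ) {h : ℍ → ℂ} (H : IsAdm h) {β : GL (Fin 2) ℝ}
    (hdet : 0 < β.det.val) (hβ : β 1 0 = 0) : IsAdm (h ∣[k] β) := by
  obtain ⟨hd, c, hc, hO⟩ := H
  refine ⟨hd.slash k β, ?_⟩
  have hdet' : β.det.val = β 0 0 * β 1 1 := by
    rw [Matrix.GeneralLinearGroup.val_det_apply, Matrix.det_fin_two]
    simp [hβ]
  have h11 : β 1 1 ≠ 0 := by
    intro h0
    rw [hdet', h0, mul_zero] at hdet
    exact lt_irrefl _ hdet
  have hden : ∀ τ : ℍ, denom β τ = ((β 1 1 : ℝ) : ℂ) := by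
    intro τ
    simp [denom, hβ]
  set q : ℝ := β.det.val / (β 1 1) ^ 2 with hq
  have hqpos : 0 < q := div_pos hdet (by positivity)
  have him : ∀ τ : ℍ, (β • τ).im = q * τ.im := by
    intro τ
    rw [im_smul_eq_div_normSq, hden, abs_of_pos hdet, Complex.normSq_ofReal, hq]
    ring
  refine ⟨c * q, mul_pos hc hqpos, ?_⟩
  have h1 := hO.comp_tendsto (tendsto_smul_atImInfty hβ)
  have h2 : (h ∣[k] β) = fun τ : ℍ =>
      ((((|β.det.val| : ℝ) : ℂ) ^ (k - 1) * ((β 1 1 : ℝ) : ℂ) ^ (-k))) *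
        (h ∘ fun τ : ℍ => β • τ) τ := by
    funext τ
    rw [ModularForm.slash_apply, hden, σ, if_pos hdet]
    simp [mul_assoc, mul_comm]
  rw [h2]
  have h3 : ((fun τ : ℍ => Real.exp (-c * τ.im)) ∘ fun τ : ℍ => β • τ)
      = fun τ : ℍ => Real.exp (-(c * q) * τ.im) := by
    funext τ
    simp only [Function.comp_apply, him]
    congr 1
    ring
  rw [h3] at h1
  exact h1.const_mul_left _

open scoped Pointwise in
/-- Conjugating an arithmetic subgroup by (the inverse of) an element of `SL(2, ℤ)` gives an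
arithmetic subgroup. -/
theorem anAdm_isArithmetic_conj (Γ : Subgroup (GL (Fin 2) ℝ)) [Γ.IsArithmetic] (g : SL(2, ℤ)) :
    (ConjAct.toConjAct (Matrix.SpecialLinearGroup.mapGL ℝ g)⁻¹ • Γ).IsArithmetic := by
  constructor
  have h1 := (Subgroup.IsArithmetic.is_commensurable (𝒢 := Γ)).conj
    (ConjAct.toConjAct (Matrix.SpecialLinearGroup.mapGL ℝ g)⁻¹)
  have h2 : ConjAct.toConjAct (Matrix.SpecialLinearGroup.mapGL ℝ g)⁻¹ • 𝒮ℒ = 𝒮ℒ :=
    Subgroup.conjAct_pointwise_smul_eq_self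
      (Subgroup.le_normalizer (inv_mem ⟨g, rfl⟩))
  rwa [h2] at h1

/-- Every `SL(2,ℤ)`-translate of a cusp form on `Γ₀(N)` is admissible. -/
theorem isAdm_cuspForm_slash (N : ℕ) [NeZero N] (k : ℤ)
    (f : CuspForm (CongruenceSubgroup.Gamma0 N) k) (g : SL(2, ℤ)) :
    IsAdm ((f : ℍ → ℂ) ∣[k] g) := by
  refine ⟨(CuspFormClass.holo f).slash k (Matrix.SpecialLinearGroup.mapGL ℝ g), ?_⟩
  have := anAdm_isArithmetic_conj
    ((CongruenceSubgroup.Gamma0 N : Subgroup SL(2, ℤ)) : Subgroup (GL (Fin 2) ℝ)) g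
  obtain ⟨c, hc, hO⟩ := CuspFormClass.exp_decay_atImInfty'
    (CuspForm.translate f (Matrix.SpecialLinearGroup.mapGL ℝ g))
  exact ⟨c, hc, hO⟩

theorem Nice.isAdm {n : ℕ} {h : ℍ → ℂ} (H : Nice n h) : IsAdm h := by
  have h1 := H 1
  rwa [SlashAction.slash_one] at h1

theorem nice_cuspForm (N : ℕ) [NeZero N] (n : ℕ)
    (f : CuspForm (CongruenceSubgroup.Gamma0 N) ((n : ℤ) + 2)) : Nice n (f : ℍ → ℂ) :=
  fun g => isAdm_cuspForm_slash N ((n : ℤ) + 2) f g

theorem Nice.slash_SL {n : ℕ} {h : ℍ → ℂ} (H : Nice n h) (g : SL(2, ℤ)) :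
    Nice n (h ∣[(n : ℤ) + 2] g) := by
  intro g'
  rw [← SlashAction.slash_mul]
  exact H (g * g')

theorem nice_zero (n : ℕ) : Nice n (0 : ℍ → ℂ) := by
  intro g
  rw [SlashAction.zero_slash]
  exact isAdm_zero

theorem Nice.add {n : ℕ} {h₁ h₂ : ℍ → ℂ} (H₁ : Nice n h₁) (H₂ : Nice n h₂) :
    Nice n (h₁ + h₂) := by
  intro g
  rw [SlashAction.add_slash]
  exact (H₁ g).add (H₂ g)

theorem Nice.smul {n : ℕ} {h : ℍ → ℂ} (H : Nice n h) (c : ℂ) : Nice n (c • h) := by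
  intro g
  rw [ModularForm.SL_smul_slash]
  exact (H g).smul c

theorem nice_sum {n : ℕ} {ι : Type*} (s : Finset ι) (h : ι → ℍ → ℂ) (H : ∀ i ∈ s, Nice n (h i)) :
    Nice n (∑ i ∈ s, h i) := by
  intro g
  rw [SlashAction.sum_slash]
  exact isAdm_sum s _ fun i hi => H i hi g

end Fermat.Agent.S22
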