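/-
S22 team: holomorphic functions on the upper half-plane `{z | 0 < z.im}` have primitives
(file owner: helper12).  Everything in this file is fully proved.

The upper half-plane `{z | 0 < z.im}` is the increasing union of the discs
`B n = ball ((n+1) * I) (n+1)`; on each disc Mathlib provides a primitive
(`DifferentiableOn.isExactOn_ball`), which we normalise to vanish at `I`; the primitives on
different discs then agree on the smaller disc and glue to a global primitive.
-/
import Mathlib

set_option autoImplicit false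

noncomputable section

namespace Fermat.Agent.S22

/-- On a convex subset of `ℂ` which is a neighbourhood of each of its points, a function with zero
derivative is constant. -/
theorem anPrim_eq_of_hasDerivAt_zero {s : Set ℂ} (hs : IsOpen s) (hc : Convex ℝ s) (F : ℂ → ℂ)
    (hF : ∀ z ∈ s, HasDerivAt F 0 z) {z w : ℂ} (hz : z ∈ s) (hw : w ∈ s) : F z = F w :=
  hs.is_const_of_deriv_eq_zero hc.isPreconnected
    (fun x hx => (hF x hx).differentiableAt.differentiableWithinAt)
    (fun x hx => (hF x hx).deriv) hz hw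

/-- A function with zero derivative on the upper half-plane `{z | 0 < z.im}` is constant there. -/
theorem eq_const_of_hasDerivAt_zero_upperHalfPlane (F : ℂ → ℂ)
    (hF : ∀ z : ℂ, 0 < z.im → HasDerivAt F 0 z) :
    ∀ z w : ℂ, 0 < z.im → 0 < w.im → F z = F w := by
  intro z w hz hw
  exact anPrim_eq_of_hasDerivAt_zero (s := {z : ℂ | 0 < z.im})
    (isOpen_lt continuous_const Complex.continuous_im)
    (convex_halfSpace_im_gt 0) F hF hz hw

/-- Membership in the disc `ball (R * I) R` (for `0 < R`): `|z|^2 < 2 R im z`. -/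
theorem anPrim_mem_ball_iff {R : ℝ} (hR : 0 < R) (z : ℂ) :
    z ∈ Metric.ball ((R : ℂ) * Complex.I) R ↔ z.re ^ 2 + z.im ^ 2 < 2 * R * z.im := by
  rw [Metric.mem_ball, Complex.dist_eq_re_im, Real.sqrt_lt' hR]
  simp only [Complex.mul_re, Complex.ofReal_re, Complex.I_re, mul_zero, Complex.ofReal_im,
    Complex.I_im, mul_one, sub_self, sub_zero, Complex.mul_im, add_zero]
  constructor <;> intro h <;> nlinarith

/-- A holomorphic function on the upper half-plane `{z | 0 < z.im}` has a holomorphic primitive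
there. -/
theorem exists_primitive_upperHalfPlane (φ : ℂ → ℂ)
    (hφ : DifferentiableOn ℂ φ {z : ℂ | 0 < z.im}) :
    ∃ Q : ℂ → ℂ, ∀ z : ℂ, 0 < z.im → HasDerivAt Q (φ z) z := by
  -- the exhausting discs
  have hRpos : ∀ n : ℕ, (0 : ℝ) < (n : ℝ) + 1 := fun n => by positivity
  set B : ℕ → Set ℂ :=
    fun n => Metric.ball ((((n : ℝ) + 1 : ℝ) : ℂ) * Complex.I) ((n : ℝ) + 1) with hB
  have hBmem : ∀ (n : ℕ) (z : ℂ), z ∈ B n ↔ z.re ^ 2 + z.im ^ 2 < 2 * ((n : ℝ) + 1) * z.im :=
    fun n z => anPrim_mem_ball_iff (hRpos n) z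
  have hBsub : ∀ n : ℕ, B n ⊆ {z : ℂ | 0 < z.im} := by
    intro n z hz
    rw [hBmem] at hz
    have h1 : 0 ≤ z.re ^ 2 + z.im ^ 2 := by positivity
    have h2 : 0 < 2 * ((n : ℝ) + 1) * z.im := lt_of_le_of_lt h1 hz
    have h3 : (0 : ℝ) < 2 * ((n : ℝ) + 1) := by have := hRpos n; positivity
    exact (pos_iff_pos_of_mul_pos h2).mp h3
  have hBopen : ∀ n : ℕ, IsOpen (B n) := fun n => Metric.isOpen_ball
  have hBconv : ∀ n : ℕ, Convex ℝ (B n) := fun n => convex_ball _ _
  have hI : ∀ n : ℕ, Complex.I ∈ B n := by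
    intro n
    rw [hBmem]
    have := hRpos n
    simp only [Complex.I_re, Complex.I_im]
    have hn : (0 : ℝ) ≤ (n : ℝ) := Nat.cast_nonneg n
    nlinarith
  -- primitives on each disc, normalised at `I`
  have hex : ∀ n : ℕ, ∃ g : ℂ → ℂ, g Complex.I = 0 ∧ ∀ z ∈ B n, HasDerivAt g (φ z) z :=
    fun n => ((hφ.mono (hBsub n)).isExactOn_ball).with_val_at Complex.I 0
  choose q hqI hq using hex
  -- compatibility: two of them agree on the intersection of their discs
  have hcompat : ∀ (n m : ℕ) (z : ℂ), z ∈ B n → z ∈ B m → q n z = q m z := by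
    intro n m z hzn hzm
    have hd : ∀ w ∈ B n ∩ B m, HasDerivAt (fun w => q n w - q m w) 0 w := by
      intro w hw
      have h := (hq n w hw.1).sub (hq m w hw.2)
      rw [sub_self] at h
      exact h
    have h := anPrim_eq_of_hasDerivAt_zero ((hBopen n).inter (hBopen m))
      ((hBconv n).inter (hBconv m)) (fun w => q n w - q m w) hd
      (z := z) (w := Complex.I) ⟨hzn, hzm⟩ ⟨hI n, hI m⟩
    simp only [hqI, sub_self] at h
    exact sub_eq_zero.mp h
  -- the index of a disc containing a given point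
  set N : ℂ → ℕ := fun z => ⌈(z.re ^ 2 + z.im ^ 2) / (2 * z.im)⌉₊ with hNdef
  have hN : ∀ z : ℂ, 0 < z.im → z ∈ B (N z) := by
    intro z hz
    rw [hBmem]
    have h1 : (z.re ^ 2 + z.im ^ 2) / (2 * z.im) ≤ (N z : ℝ) := Nat.le_ceil _
    have h2 : (0 : ℝ) < 2 * z.im := by positivity
    rw [div_le_iff₀ h2] at h1
    nlinarith
  refine ⟨fun z => q (N z) z, fun z hz => ?_⟩
  have hev : (fun w => q (N w) w) =ᶠ[nhds z] q (N z) := by
    filter_upwards [(hBopen (N z)).mem_nhds (hN z hz)] with w hw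
    exact hcompat _ _ w (hN w (hBsub _ hw)) hw
  exact (hq (N z) z (hN z hz)).congr_of_eventuallyEq hev

/-- A holomorphic function on the upper half-plane `{z | 0 < z.im}` has a holomorphic primitive
there, with a prescribed value at a prescribed point. -/
theorem exists_primitive_upperHalfPlane' (φ : ℂ → ℂ)
    (hφ : DifferentiableOn ℂ φ {z : ℂ | 0 < z.im}) (z₀ : ℂ) (c : ℂ) :
    ∃ Q : ℂ → ℂ, Q z₀ = c ∧ ∀ z : ℂ, 0 < z.im → HasDerivAt Q (φ z) z := by
  obtain ⟨Q, hQ⟩ := exists_primitive_upperHalfPlane φ hφ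
  refine ⟨fun z => Q z - Q z₀ + c, by simp, fun z hz => ?_⟩
  simpa using ((hQ z hz).sub_const (Q z₀)).add_const c

end Fermat.Agent.S22
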