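/-
S22 (helper2): (A2) the primitive `P r h` tends to `0` along vertical lines.
Self-contained: only the definition of `P` is used.
-/
import Mathlib
import Fermat.Agent.S22.Defs

set_option autoImplicit false

noncomputable section

open UpperHalfPlane ModularForm Filter Complex MeasureTheory
open scoped MatrixGroups ModularForm Manifold Topology

namespace Fermat.Agent.S22

/-- On the vertical line through `x`, `P r h (x + t i)` is a tail integral. -/
theorem P_vertical_eq_tail (h : ℍ → ℂ) (r : ℕ) (x : ℝ) {t : ℝ} (ht : 0 < t) :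
    P r h (ofComplex ((x : ℂ) + t * Complex.I)) =
      -∫ u in Set.Ioi t, h (ofComplex ((x : ℂ) + u * Complex.I)) *
        ((x : ℂ) + u * Complex.I) ^ r * Complex.I := by
  have him : 0 < ((x : ℂ) + t * Complex.I).im := by simpa using ht
  unfold P
  rw [ofComplex_apply_of_im_pos him]
  congr 1
  have hpre : (fun s : ℝ => s + t) ⁻¹' Set.Ioi t = Set.Ioi 0 := by
    ext s; simp
  have key := (measurePreserving_add_right volume t).setIntegral_preimage_emb
    (MeasurableEquiv.addRight t).measurableEmbedding
    (fun u : ℝ => h (ofComplex ((x : ℂ) + u * Complex.I)) *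
        ((x : ℂ) + u * Complex.I) ^ r * Complex.I) (Set.Ioi t)
  rw [hpre] at key
  rw [← key]
  refine setIntegral_congr_fun measurableSet_Ioi fun s _ => ?_
  have : ((⟨(x : ℂ) + t * Complex.I, him⟩ : ℍ) : ℂ) + (s : ℂ) * Complex.I
      = (x : ℂ) + ((s + t : ℝ) : ℂ) * Complex.I := by
    push_cast
    show (x : ℂ) + t * Complex.I + s * Complex.I = _
    ring
  simp only [this]

/-- (A2) `P r h` tends to `0` along every vertical line (no hypothesis on `h` needed). -/
theorem tendsto_P_vertical_aux (h : ℍ → ℂ) (r : ℕ) (x : ℝ) :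
    Tendsto (fun t : ℝ => P r h (ofComplex ((x : ℂ) + t * Complex.I))) atTop (𝓝 0) := by
  have h1 : Tendsto (fun t : ℝ => -∫ u in Set.Ioi t, h (ofComplex ((x : ℂ) + u * Complex.I)) *
        ((x : ℂ) + u * Complex.I) ^ r * Complex.I) atTop (𝓝 0) := by
    have := (tendsto_integral_Ioi_zero (μ := volume)
      (f := fun u : ℝ => h (ofComplex ((x : ℂ) + u * Complex.I)) *
        ((x : ℂ) + u * Complex.I) ^ r * Complex.I) (b := fun t : ℝ => t) tendsto_id).neg
    simpa using this
  refine h1.congr' ?_
  filter_upwards [eventually_gt_atTop (0 : ℝ)] with t ht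
  exact (P_vertical_eq_tail h r x ht).symm

/-- (A2), with the exact signature of `AnCore.tendsto_P_vertical`. -/
theorem tendsto_P_vertical' {h : ℍ → ℂ} (_H : IsAdm h) (r : ℕ) (x : ℝ) :
    Tendsto (fun t : ℝ => P r h (ofComplex ((x : ℂ) + t * Complex.I))) atTop (𝓝 0) :=
  tendsto_P_vertical_aux h r x

end Fermat.Agent.S22
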