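/-
S22 analytic core (helper5, with helper12: AnPrim, helper13: contraction, helper2: AnTail).
Statements (A0)-(A3) about the normalised primitives `P r h`:
`integrableOn_P`, `hasDerivAt_P`, `tendsto_P_vertical`, `E_contraction_eq`,
`isZeroAtImInfty_E_contraction`.
-/
import Mathlib
import Fermat.Agent.S22.Defs
import Fermat.Agent.S22.AnPrim
import Fermat.Agent.S22.AnTail

set_option autoImplicit false

noncomputable section

open UpperHalfPlane ModularForm Filter Complex MeasureTheory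
open scoped MatrixGroups ModularForm Manifold Topology

namespace Fermat.Agent.S22

/-- pointwise decay bound extracted from `IsAdm`. -/
theorem anCore_decay {h : ℍ → ℂ} (H : IsAdm h) :
    ∃ c : ℝ, 0 < c ∧ ∃ C A : ℝ, 0 ≤ C ∧ 0 < A ∧
      ∀ w : ℂ, A ≤ w.im → ‖h (ofComplex w)‖ ≤ C * Real.exp (-c * w.im) := by
  obtain ⟨-, c, hc, hO⟩ := H
  obtain ⟨C, hC⟩ := hO.bound
  rw [Filter.Eventually, atImInfty_mem] at hC
  obtain ⟨A, hA⟩ := hC
  refine ⟨c, hc, max C 0, max A 1, le_max_right _ _, lt_of_lt_of_le one_pos (le_max_right _ _), ?_⟩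
  intro w hw
  have hw0 : 0 < w.im := lt_of_lt_of_le one_pos ((le_max_right _ _).trans hw)
  have h1 := hA (ofComplex w) (by
    rw [ofComplex_apply_of_im_pos hw0]; exact (le_max_left _ _).trans hw)
  simp only [Set.mem_ofPred_eq] at h1
  rw [ofComplex_apply_of_im_pos hw0] at h1 ⊢
  have him : (⟨w, hw0⟩ : ℍ).im = w.im := rfl
  rw [him, Real.norm_eq_abs, abs_of_pos (Real.exp_pos _)] at h1
  exact h1.trans (mul_le_mul_of_nonneg_right (le_max_left _ _) (Real.exp_pos _).le)

/-- the function `φ(w) = h(w) w^r` is holomorphic on the upper half plane. -/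
theorem anCore_diffOn {h : ℍ → ℂ} (H : IsAdm h) (r : ℕ) :
    DifferentiableOn ℂ (fun w : ℂ => h (ofComplex w) * w ^ r) {z : ℂ | 0 < z.im} :=
  (UpperHalfPlane.mdifferentiable_iff.mp H.1).mul (differentiableOn_id.pow r)

/-- key bound: `‖h(w) w^r‖ ≤ K exp((c/2)|re w|) exp(-(c/2) im w)` for `im w ≥ A`. -/
theorem anCore_bound {h : ℍ → ℂ} (H : IsAdm h) (r : ℕ) :
    ∃ b : ℝ, 0 < b ∧ ∃ K A : ℝ, 0 ≤ K ∧ 0 < A ∧
      ∀ w : ℂ, A ≤ w.im →
        ‖h (ofComplex w) * w ^ r‖ ≤ K * Real.exp (b * |w.re|) * Real.exp (-b * w.im) := by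
  obtain ⟨c, hc, C, A, hC, hA, hb⟩ := anCore_decay H
  refine ⟨c / 2, by positivity, C * (r.factorial * (2 / c) ^ r), A, by positivity, hA, ?_⟩
  intro w hw
  have hw0 : 0 < w.im := hA.trans_le hw
  have h1 := hb w hw
  have h2 : ‖w‖ ≤ |w.re| + w.im := by
    have := Complex.norm_le_abs_re_add_abs_im w
    rwa [abs_of_pos hw0] at this
  have h3 : ‖w‖ ^ r ≤ r.factorial * (2 / c) ^ r * Real.exp (c / 2 * (|w.re| + w.im)) := by
    have hx : 0 ≤ c / 2 * ‖w‖ := by positivity
    have h4 := Real.pow_div_factorial_le_exp (c / 2 * ‖w‖) hx r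
    have h5 : Real.exp (c / 2 * ‖w‖) ≤ Real.exp (c / 2 * (|w.re| + w.im)) :=
      Real.exp_le_exp.mpr (by nlinarith)
    have h6 : (c / 2 * ‖w‖) ^ r ≤ r.factorial * Real.exp (c / 2 * (|w.re| + w.im)) := by
      have := (div_le_iff₀ (by positivity : (0 : ℝ) < r.factorial)).mp (h4.trans h5)
      linarith
    have h7 : ‖w‖ ^ r = (2 / c) ^ r * (c / 2 * ‖w‖) ^ r := by
      rw [← mul_pow]; congr 1; field_simp
    rw [h7]
    calc (2 / c) ^ r * (c / 2 * ‖w‖) ^ r
        ≤ (2 / c) ^ r * (r.factorial * Real.exp (c / 2 * (|w.re| + w.im))) :=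
          mul_le_mul_of_nonneg_left h6 (by positivity)
      _ = _ := by ring
  rw [norm_mul, norm_pow]
  calc ‖h (ofComplex w)‖ * ‖w‖ ^ r
      ≤ (C * Real.exp (-c * w.im)) *
          (r.factorial * (2 / c) ^ r * Real.exp (c / 2 * (|w.re| + w.im))) :=
        mul_le_mul h1 h3 (by positivity) (by positivity)
    _ = C * (r.factorial * (2 / c) ^ r) * Real.exp (c / 2 * |w.re|) * Real.exp (-(c / 2) * w.im) := by
        have : Real.exp (-c * w.im) * Real.exp (c / 2 * (|w.re| + w.im))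
            = Real.exp (c / 2 * |w.re|) * Real.exp (-(c / 2) * w.im) := by
          rw [← Real.exp_add, ← Real.exp_add]; congr 1; ring
        calc _ = C * (r.factorial * (2 / c) ^ r) *
              (Real.exp (-c * w.im) * Real.exp (c / 2 * (|w.re| + w.im))) := by ring
          _ = _ := by rw [this]; ring

theorem anCore_im_add (z : ℂ) (t : ℝ) : (z + t * Complex.I).im = z.im + t := by simp

theorem anCore_re_add (z : ℂ) (t : ℝ) : (z + t * Complex.I).re = z.re := by simp

/-- continuity of the integrand on `[0, ∞)`, for `z` in the upper half plane. -/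
theorem anCore_continuousOn {h : ℍ → ℂ} (H : IsAdm h) (r : ℕ) {z : ℂ} (hz : 0 < z.im) :
    ContinuousOn (fun t : ℝ => h (ofComplex (z + t * Complex.I)) *
      (z + t * Complex.I) ^ r * Complex.I) (Set.Ici 0) := by
  have h1 : ContinuousOn (fun w : ℂ => h (ofComplex w) * w ^ r) {z : ℂ | 0 < z.im} :=
    (anCore_diffOn H r).continuousOn
  have h2 : ContinuousOn (fun t : ℝ => z + (t : ℂ) * Complex.I) (Set.Ici 0) := by fun_prop
  have h3 : Set.MapsTo (fun t : ℝ => z + (t : ℂ) * Complex.I) (Set.Ici 0) {z : ℂ | 0 < z.im} := by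
    intro t ht
    simp only [Set.mem_ofPred_eq, Set.mem_Ici] at ht ⊢
    rw [anCore_im_add]; linarith
  exact (h1.comp h2 h3).mul continuousOn_const

/-- (A0) for complex `z` with positive imaginary part. -/
theorem anCore_integrableOn {h : ℍ → ℂ} (H : IsAdm h) (r : ℕ) {z : ℂ} (hz : 0 < z.im) :
    IntegrableOn (fun t : ℝ => h (ofComplex (z + t * Complex.I)) *
      (z + t * Complex.I) ^ r * Complex.I) (Set.Ioi 0) := by
  obtain ⟨b, hb, K, A, hK, hA, hbound⟩ := anCore_bound H r
  have hcont := anCore_continuousOn H r hz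
  rw [← integrableOn_Ici_iff_integrableOn_Ioi]
  refine (hcont.locallyIntegrableOn measurableSet_Ici).integrableOn_of_isBigO_atTop
    (g := fun t : ℝ => Real.exp (-b * t)) ?_ ⟨Set.Ioi b, Ioi_mem_atTop b, exp_neg_integrableOn_Ioi b hb⟩
  refine Asymptotics.IsBigO.of_bound (K * Real.exp (b * |z.re|)) ?_
  filter_upwards [eventually_ge_atTop A] with t ht
  have h1 := hbound (z + t * Complex.I) (by rw [anCore_im_add]; linarith)
  rw [anCore_re_add, anCore_im_add] at h1
  rw [norm_mul, Complex.norm_I, mul_one, Real.norm_eq_abs, abs_of_pos (Real.exp_pos _)]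
  refine h1.trans ?_
  refine mul_le_mul_of_nonneg_left ?_ (by positivity)
  exact Real.exp_le_exp.mpr (by nlinarith)

/-- `P` written on complex points of the upper half plane. -/
def anCoreP (r : ℕ) (h : ℍ → ℂ) (z : ℂ) : ℂ :=
  -∫ t in Set.Ioi (0 : ℝ), h (ofComplex (z + t * Complex.I)) * (z + t * Complex.I) ^ r * Complex.I

theorem anCoreP_eq (r : ℕ) (h : ℍ → ℂ) {w : ℂ} (hw : 0 < w.im) :
    P r h (ofComplex w) = anCoreP r h w := by
  rw [P, anCoreP, ofComplex_apply_of_im_pos hw]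

/-- Step 1: along a vertical ray, a primitive `Q` of `φ` tends to `Q z - P z`. -/
theorem anCore_step1 {h : ℍ → ℂ} (H : IsAdm h) (r : ℕ) (Q : ℂ → ℂ)
    (hQ : ∀ z : ℂ, 0 < z.im → HasDerivAt Q (h (ofComplex z) * z ^ r) z) {z : ℂ} (hz : 0 < z.im) :
    Tendsto (fun T : ℝ => Q (z + T * Complex.I)) atTop (𝓝 (Q z - anCoreP r h z)) := by
  set f' : ℝ → ℂ := fun t => h (ofComplex (z + t * Complex.I)) *
      (z + t * Complex.I) ^ r * Complex.I with hf'
  have hint := anCore_integrableOn H r hz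
  have hcont := anCore_continuousOn H r hz
  have hderiv : ∀ t : ℝ, 0 ≤ t → HasDerivAt (fun t : ℝ => Q (z + t * Complex.I)) (f' t) t := by
    intro t ht
    have h1 := hQ (z + t * Complex.I) (by rw [anCore_im_add]; linarith)
    have h2 : HasDerivAt (fun t : ℝ => z + (t : ℂ) * Complex.I) Complex.I t := by
      have := ((Complex.ofRealCLM.hasDerivAt (x := t)).mul_const Complex.I).const_add z
      simpa using this
    have h3 := HasDerivAt.scomp t h1 h2
    have h4 : (fun t : ℝ => Q (z + t * Complex.I)) = Q ∘ fun t : ℝ => z + (t : ℂ) * Complex.I := rfl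
    rw [h4]
    exact h3.congr_deriv (by simp only [hf', smul_eq_mul]; ring)
  have hFTC : ∀ T : ℝ, 0 ≤ T → Q (z + T * Complex.I) = Q z + ∫ t in (0 : ℝ)..T, f' t := by
    intro T hT
    have := intervalIntegral.integral_eq_sub_of_hasDerivAt
      (f := fun t : ℝ => Q (z + t * Complex.I)) (f' := f') (a := 0) (b := T)
      (fun t ht => hderiv t (by rw [Set.uIcc_of_le hT] at ht; exact ht.1))
      ((hcont.mono (by rw [Set.uIcc_of_le hT]; exact Set.Icc_subset_Ici_self)).intervalIntegrable)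
    rw [this]; simp
  have hlim := intervalIntegral_tendsto_integral_Ioi (f := f') 0 hint tendsto_id
  have h3 : Tendsto (fun T : ℝ => Q z + ∫ t in (0 : ℝ)..T, f' t) atTop
      (𝓝 (Q z - anCoreP r h z)) := by
    have : Q z - anCoreP r h z = Q z + ∫ t in Set.Ioi (0 : ℝ), f' t := by
      rw [anCoreP]; ring
    rw [this]
    exact tendsto_const_nhds.add hlim
  refine h3.congr' ?_
  filter_upwards [eventually_ge_atTop 0] with T hT
  exact (hFTC T hT).symm

/-- Step 2: the difference of a primitive along two vertical rays tends to `0`. -/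
theorem anCore_step2 {h : ℍ → ℂ} (H : IsAdm h) (r : ℕ) (Q : ℂ → ℂ)
    (hQ : ∀ z : ℂ, 0 < z.im → HasDerivAt Q (h (ofComplex z) * z ^ r) z) {z z' : ℂ}
    (hz : 0 < z.im) (hz' : 0 < z'.im) :
    Tendsto (fun T : ℝ => Q (z' + T * Complex.I) - Q (z + T * Complex.I)) atTop (𝓝 0) := by
  obtain ⟨b, hb, K, A, hK, hA, hbound⟩ := anCore_bound H r
  set X : ℝ := max |z.re| |z'.re| with hX
  -- bound on the norm
  have hnorm : ∀ T : ℝ, A ≤ T →
      ‖Q (z' + T * Complex.I) - Q (z + T * Complex.I)‖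
        ≤ K * Real.exp (b * X) * Real.exp (-b * T) * ‖z' - z‖ := by
    intro T hT
    set s : Set ℂ := {w : ℂ | T ≤ w.im ∧ |w.re| ≤ X} with hs
    have hsconv : Convex ℝ s := by
      have h1 : Convex ℝ {w : ℂ | T ≤ w.im} := convex_halfSpace_im_ge T
      have h2 : Convex ℝ {w : ℂ | w.re ≤ X} := convex_halfSpace_re_le X
      have h3 : Convex ℝ {w : ℂ | -X ≤ w.re} := convex_halfSpace_re_ge (-X)
      have : s = {w : ℂ | T ≤ w.im} ∩ ({w : ℂ | w.re ≤ X} ∩ {w : ℂ | -X ≤ w.re}) := by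
        ext w
        simp only [hs, Set.mem_ofPred_eq, Set.mem_inter_iff, abs_le]
        tauto
      rw [this]
      exact h1.inter (h2.inter h3)
    have hzs : z + T * Complex.I ∈ s := by
      refine ⟨?_, ?_⟩
      · rw [anCore_im_add]; linarith
      · rw [anCore_re_add]; exact le_max_left _ _
    have hzs' : z' + T * Complex.I ∈ s := by
      refine ⟨?_, ?_⟩
      · rw [anCore_im_add]; linarith
      · rw [anCore_re_add]; exact le_max_right _ _
    have hder : ∀ w ∈ s, HasDerivWithinAt Q (h (ofComplex w) * w ^ r) s w := by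
      intro w hw
      exact (hQ w (lt_of_lt_of_le (hA.trans_le hT) hw.1)).hasDerivWithinAt
    have hbd : ∀ w ∈ s, ‖h (ofComplex w) * w ^ r‖ ≤ K * Real.exp (b * X) * Real.exp (-b * T) := by
      intro w hw
      refine (hbound w (hT.trans hw.1)).trans ?_
      have h1 : Real.exp (b * |w.re|) ≤ Real.exp (b * X) :=
        Real.exp_le_exp.mpr (mul_le_mul_of_nonneg_left hw.2 hb.le)
      have h2 : Real.exp (-b * w.im) ≤ Real.exp (-b * T) :=
        Real.exp_le_exp.mpr (by nlinarith [hw.1])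
      exact mul_le_mul (mul_le_mul_of_nonneg_left h1 hK) h2 (Real.exp_pos _).le (by positivity)
    have := Convex.norm_image_sub_le_of_norm_hasDerivWithin_le hder hbd hsconv hzs hzs'
    have e : z' + T * Complex.I - (z + T * Complex.I) = z' - z := by ring
    rwa [e] at this
  -- squeeze
  have hlim : Tendsto (fun T : ℝ => K * Real.exp (b * X) * Real.exp (-b * T) * ‖z' - z‖) atTop
      (𝓝 0) := by
    have h1 : Tendsto (fun T : ℝ => Real.exp (-b * T)) atTop (𝓝 0) :=
      Real.tendsto_exp_atBot.comp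
        (tendsto_id.const_mul_atTop_of_neg (neg_neg_iff_pos.2 hb))
    have := (h1.const_mul (K * Real.exp (b * X))).mul_const ‖z' - z‖
    simpa using this
  refine squeeze_zero_norm' ?_ hlim
  filter_upwards [eventually_ge_atTop A] with T hT
  exact hnorm T hT

/-- Step 3: `Q - P` is constant on the upper half plane. -/
theorem anCore_step3 {h : ℍ → ℂ} (H : IsAdm h) (r : ℕ) (Q : ℂ → ℂ)
    (hQ : ∀ z : ℂ, 0 < z.im → HasDerivAt Q (h (ofComplex z) * z ^ r) z) {z z' : ℂ}
    (hz : 0 < z.im) (hz' : 0 < z'.im) :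
    Q z' - anCoreP r h z' = Q z - anCoreP r h z := by
  have h1 := anCore_step1 H r Q hQ hz
  have h1' := anCore_step1 H r Q hQ hz'
  have h2 := anCore_step2 H r Q hQ hz hz'
  have h3 := h1'.sub h1
  have h4 := tendsto_nhds_unique h3 h2
  exact sub_eq_zero.mp h4

/-- (A1), complex form. -/
theorem anCore_hasDerivAt {h : ℍ → ℂ} (H : IsAdm h) (r : ℕ) {z : ℂ} (hz : 0 < z.im) :
    HasDerivAt (fun w : ℂ => P r h (ofComplex w)) (h (ofComplex z) * z ^ r) z := by
  obtain ⟨Q, hQ⟩ := exists_primitive_upperHalfPlane _ (anCore_diffOn H r)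
  have hI : (0 : ℝ) < (Complex.I).im := by simp
  set L := Q Complex.I - anCoreP r h Complex.I with hL
  have h1 : HasDerivAt (fun w : ℂ => Q w - L) (h (ofComplex z) * z ^ r) z := (hQ z hz).sub_const L
  refine h1.congr_of_eventuallyEq ?_
  have hopen : IsOpen {w : ℂ | 0 < w.im} := isOpen_lt continuous_const Complex.continuous_im
  filter_upwards [hopen.mem_nhds hz] with w hw
  rw [anCoreP_eq r h hw]
  have := anCore_step3 H r Q hQ hI hw
  rw [← hL] at this
  linear_combination -this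

/-- (A0) the integrand defining `P r h z` is integrable on `(0,∞)`. -/
theorem integrableOn_P {h : ℍ → ℂ} (H : IsAdm h) (r : ℕ) (z : ℍ) :
    IntegrableOn (fun t : ℝ => h (ofComplex ((z : ℂ) + t * Complex.I)) *
      ((z : ℂ) + t * Complex.I) ^ r * Complex.I) (Set.Ioi 0) :=
  anCore_integrableOn H r z.im_pos

/-- (A1) `P r h` is a primitive of `h(z) z^r` on `ℍ`. -/
theorem hasDerivAt_P {h : ℍ → ℂ} (H : IsAdm h) (r : ℕ) (z : ℍ) :
    HasDerivAt (fun w : ℂ => P r h (ofComplex w)) (h z * (z : ℂ) ^ r) (z : ℂ) := by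
  have := anCore_hasDerivAt H r (z := (z : ℂ)) z.im_pos
  rwa [ofComplex_apply] at this

/-- (A2) `P r h` tends to `0` along every vertical line. -/
theorem tendsto_P_vertical {h : ℍ → ℂ} (H : IsAdm h) (r : ℕ) (x : ℝ) :
    Tendsto (fun t : ℝ => P r h (ofComplex ((x : ℂ) + t * Complex.I))) atTop (𝓝 0) :=
  tendsto_P_vertical' H r x

/-- Binomial identity behind the contraction: pointwise in `t`, the finite sum of the integrands
of the `P r h z` weighted by `C(n,r) z^(n-r) (-1)^r` collapses to `h(z+it) (-(it))^n i`. -/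
theorem anContr_sum_integrand (h : ℍ → ℂ) (n : ℕ) (z : ℍ) (t : ℝ) :
    ∑ r ∈ Finset.range (n + 1), ((n.choose r : ℂ) * (z : ℂ) ^ (n - r) * (-1) ^ r) *
        (h (ofComplex ((z : ℂ) + t * Complex.I)) * ((z : ℂ) + t * Complex.I) ^ r * Complex.I)
      = h (ofComplex ((z : ℂ) + t * Complex.I)) * (-((t : ℂ) * Complex.I)) ^ n * Complex.I := by
  have h1 : (-((t : ℂ) * Complex.I)) ^ n = (-((z : ℂ) + t * Complex.I) + (z : ℂ)) ^ n := by
    congr 1; ring
  rw [h1, add_pow, Finset.mul_sum, Finset.sum_mul]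
  refine Finset.sum_congr rfl fun r _ => ?_
  rw [neg_pow ((z : ℂ) + t * Complex.I) r]
  ring

/-- (A3a) the contraction `z ↦ E n h z 1 z` equals `-∫_{t>0} h(z+it) (-(it))^n i dt`. -/
theorem E_contraction_eq {h : ℍ → ℂ} (H : IsAdm h) (n : ℕ) (z : ℍ) :
    E n h (z : ℂ) 1 z =
      -∫ t in Set.Ioi (0 : ℝ), h (ofComplex ((z : ℂ) + t * Complex.I)) *
        (-((t : ℂ) * Complex.I)) ^ n * Complex.I := by
  have hint : ∀ r ∈ Finset.range (n + 1), Integrable (fun t : ℝ =>
      ((n.choose r : ℂ) * (z : ℂ) ^ (n - r) * (-1) ^ r) *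
        (h (ofComplex ((z : ℂ) + t * Complex.I)) * ((z : ℂ) + t * Complex.I) ^ r * Complex.I))
      (volume.restrict (Set.Ioi (0 : ℝ))) := fun r _ =>
    Integrable.const_mul (integrableOn_P H r z) _
  calc E n h (z : ℂ) 1 z
      = -∑ r ∈ Finset.range (n + 1), ∫ t in Set.Ioi (0 : ℝ),
          ((n.choose r : ℂ) * (z : ℂ) ^ (n - r) * (-1) ^ r) *
            (h (ofComplex ((z : ℂ) + t * Complex.I)) * ((z : ℂ) + t * Complex.I) ^ r *
              Complex.I) := by
        unfold E P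
        rw [← Finset.sum_neg_distrib]
        refine Finset.sum_congr rfl fun r _ => ?_
        rw [MeasureTheory.integral_const_mul]
        ring
    _ = -∫ t in Set.Ioi (0 : ℝ), h (ofComplex ((z : ℂ) + t * Complex.I)) *
          (-((t : ℂ) * Complex.I)) ^ n * Complex.I := by
        rw [← integral_finsetSum _ hint]
        simp_rw [anContr_sum_integrand]

/-- `t ↦ t^n * exp(-c t)` is integrable on `(0,∞)` for `c > 0`. -/
theorem anContr_integrableOn_pow_mul_exp (n : ℕ) {c : ℝ} (hc : 0 < c) :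
    IntegrableOn (fun t : ℝ => t ^ n * Real.exp (-c * t)) (Set.Ioi 0) := by
  have h := integrableOn_rpow_mul_exp_neg_mul_rpow (p := 1) (s := (n : ℝ)) (b := c)
    (by have : (0 : ℝ) ≤ n := Nat.cast_nonneg n
        linarith) one_pos hc
  refine h.congr_fun (fun t _ => ?_) measurableSet_Ioi
  simp only [Real.rpow_natCast, Real.rpow_one]

/-- Explicit bound: if `‖h τ‖ ≤ C exp(-c im τ)` for `im τ ≥ A`, then for `im z ≥ A` the
contraction is bounded by `C * K * exp(-c im z)` with `K = ∫_{t>0} t^n exp(-c t) dt`. -/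
theorem anContr_norm_le {h : ℍ → ℂ} (H : IsAdm h) (n : ℕ) {c C A : ℝ} (hc : 0 < c)
    (hA : ∀ τ : ℍ, A ≤ τ.im → ‖h τ‖ ≤ C * Real.exp (-c * τ.im)) (z : ℍ) (hz : A ≤ z.im) :
    ‖E n h (z : ℂ) 1 z‖ ≤
      C * (∫ t in Set.Ioi (0 : ℝ), t ^ n * Real.exp (-c * t)) * Real.exp (-c * z.im) := by
  rw [E_contraction_eq H n z, norm_neg]
  have hpt : ∀ t ∈ Set.Ioi (0 : ℝ),
      ‖h (ofComplex ((z : ℂ) + t * Complex.I)) * (-((t : ℂ) * Complex.I)) ^ n * Complex.I‖ ≤
        C * Real.exp (-c * z.im) * (t ^ n * Real.exp (-c * t)) := by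
    intro t ht
    have ht0 : (0 : ℝ) < t := ht
    have him : 0 < ((z : ℂ) + t * Complex.I).im := by
      have : ((z : ℂ) + t * Complex.I).im = z.im + t := by simp
      rw [this]
      exact add_pos z.im_pos ht0
    have him' : (ofComplex ((z : ℂ) + t * Complex.I)).im = z.im + t := by
      rw [ofComplex_apply_of_im_pos him]
      change ((z : ℂ) + t * Complex.I).im = z.im + t
      simp
    have hh := hA (ofComplex ((z : ℂ) + t * Complex.I)) (by rw [him']; linarith)
    rw [him'] at hh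
    have hexp : Real.exp (-c * (z.im + t)) = Real.exp (-c * z.im) * Real.exp (-c * t) := by
      rw [← Real.exp_add]; congr 1; ring
    have hnorm : ‖(-((t : ℂ) * Complex.I)) ^ n‖ = t ^ n := by
      rw [norm_pow, norm_neg, norm_mul, Complex.norm_I, mul_one, Complex.norm_real,
        Real.norm_of_nonneg ht0.le]
    rw [norm_mul, norm_mul, Complex.norm_I, mul_one, hnorm]
    calc ‖h (ofComplex ((z : ℂ) + t * Complex.I))‖ * t ^ n
        ≤ (C * Real.exp (-c * (z.im + t))) * t ^ n :=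
          mul_le_mul_of_nonneg_right hh (pow_nonneg ht0.le n)
      _ = C * Real.exp (-c * z.im) * (t ^ n * Real.exp (-c * t)) := by rw [hexp]; ring
  calc ‖∫ t in Set.Ioi (0 : ℝ), h (ofComplex ((z : ℂ) + t * Complex.I)) *
          (-((t : ℂ) * Complex.I)) ^ n * Complex.I‖
      ≤ ∫ t in Set.Ioi (0 : ℝ), C * Real.exp (-c * z.im) * (t ^ n * Real.exp (-c * t)) :=
        norm_integral_le_of_norm_le
          (Integrable.const_mul (anContr_integrableOn_pow_mul_exp n hc) _)
          ((ae_restrict_iff' measurableSet_Ioi).2 (Eventually.of_forall hpt))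
    _ = C * (∫ t in Set.Ioi (0 : ℝ), t ^ n * Real.exp (-c * t)) * Real.exp (-c * z.im) := by
        rw [MeasureTheory.integral_const_mul]; ring

/-- (A3) the contraction `z ↦ E n h z 1 z` is zero at `i∞` (uniformly in `Re z`). -/
theorem isZeroAtImInfty_E_contraction {h : ℍ → ℂ} (H : IsAdm h) (n : ℕ) :
    IsZeroAtImInfty (fun z : ℍ => E n h (z : ℂ) 1 z) := by
  obtain ⟨c, hc, hO⟩ := H.2
  obtain ⟨C, hC⟩ := hO.bound
  obtain ⟨A, hA⟩ := (atImInfty_mem _).1 hC
  have hA' : ∀ τ : ℍ, A ≤ τ.im → ‖h τ‖ ≤ C * Real.exp (-c * τ.im) := by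
    intro τ hτ
    have := hA τ hτ
    simpa [Real.norm_eq_abs, abs_of_pos (Real.exp_pos _)] using this
  have htend : Tendsto (fun z : ℍ =>
      C * (∫ t in Set.Ioi (0 : ℝ), t ^ n * Real.exp (-c * t)) * Real.exp (-c * z.im))
      atImInfty (𝓝 0) := by
    have h1 : Tendsto (fun y : ℝ => -c * y) atTop atBot :=
      tendsto_id.const_mul_atTop_of_neg (neg_lt_zero.mpr hc)
    have h2 : Tendsto (fun y : ℝ =>
        C * (∫ t in Set.Ioi (0 : ℝ), t ^ n * Real.exp (-c * t)) * Real.exp (-c * y))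
        atTop (𝓝 0) := by
      have := (Real.tendsto_exp_atBot.comp h1).const_mul
        (C * (∫ t in Set.Ioi (0 : ℝ), t ^ n * Real.exp (-c * t)))
      simpa using this
    exact h2.comp tendsto_comap
  refine squeeze_zero_norm' ?_ htend
  exact (atImInfty_mem _).2 ⟨A, fun z hz => anContr_norm_le H n hc hA' z hz⟩

end Fermat.Agent.S22
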