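/-
S22 analytic half (helper7): linearity of `P`, `E` in `h` (I2).
Uses only (A0) `integrableOn_P` from AnCore.
-/
import Mathlib
import Fermat.Agent.S22.Defs
import Fermat.Agent.S22.AnCore

set_option autoImplicit false

noncomputable section

open UpperHalfPlane ModularForm Filter Complex MeasureTheory
open scoped MatrixGroups ModularForm Manifold Topology

namespace Fermat.Agent.S22

/-! ### (I2) Linearity of `P`, `E` in `h`; expansion of `E` -/

theorem E_def (n : ℕ) (h : ℍ → ℂ) (x y : ℂ) (z : ℍ) :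
    E n h x y z = ∑ r ∈ Finset.range (n + 1), (n.choose r : ℂ) * x ^ (n - r) * (-y) ^ r * P r h z :=
  rfl

theorem P_add (r : ℕ) {h₁ h₂ : ℍ → ℂ} (H₁ : IsAdm h₁) (H₂ : IsAdm h₂) (z : ℍ) :
    P r (h₁ + h₂) z = P r h₁ z + P r h₂ z := by
  unfold P
  have e : (fun t : ℝ => (h₁ + h₂) (ofComplex ((z : ℂ) + t * Complex.I)) *
      ((z : ℂ) + t * Complex.I) ^ r * Complex.I) =
      fun t : ℝ => h₁ (ofComplex ((z : ℂ) + t * Complex.I)) *
          ((z : ℂ) + t * Complex.I) ^ r * Complex.I +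
        h₂ (ofComplex ((z : ℂ) + t * Complex.I)) *
          ((z : ℂ) + t * Complex.I) ^ r * Complex.I := by
    funext t
    simp only [Pi.add_apply]
    ring
  rw [e, integral_add (integrableOn_P H₁ r z) (integrableOn_P H₂ r z)]
  ring

theorem P_smul (r : ℕ) (c : ℂ) (h : ℍ → ℂ) (z : ℍ) : P r (c • h) z = c * P r h z := by
  unfold P
  have e : (fun t : ℝ => (c • h) (ofComplex ((z : ℂ) + t * Complex.I)) *
      ((z : ℂ) + t * Complex.I) ^ r * Complex.I) =
      fun t : ℝ => c * (h (ofComplex ((z : ℂ) + t * Complex.I)) *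
          ((z : ℂ) + t * Complex.I) ^ r * Complex.I) := by
    funext t
    simp only [Pi.smul_apply, smul_eq_mul]
    ring
  rw [e, integral_const_mul]
  ring

theorem P_sum (r : ℕ) {ι : Type*} (s : Finset ι) (h : ι → ℍ → ℂ) (H : ∀ i ∈ s, IsAdm (h i))
    (z : ℍ) : P r (∑ i ∈ s, h i) z = ∑ i ∈ s, P r (h i) z := by
  unfold P
  have e : (fun t : ℝ => (∑ i ∈ s, h i) (ofComplex ((z : ℂ) + t * Complex.I)) *
      ((z : ℂ) + t * Complex.I) ^ r * Complex.I) =
      fun t : ℝ => ∑ i ∈ s, h i (ofComplex ((z : ℂ) + t * Complex.I)) *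
          ((z : ℂ) + t * Complex.I) ^ r * Complex.I := by
    funext t
    simp only [Finset.sum_apply, Finset.sum_mul]
  rw [e, integral_finsetSum s fun i hi => integrableOn_P (H i hi) r z, Finset.sum_neg_distrib]

theorem E_add (n : ℕ) {h₁ h₂ : ℍ → ℂ} (H₁ : IsAdm h₁) (H₂ : IsAdm h₂) (x y : ℂ) (z : ℍ) :
    E n (h₁ + h₂) x y z = E n h₁ x y z + E n h₂ x y z := by
  unfold E
  rw [← Finset.sum_add_distrib]
  refine Finset.sum_congr rfl fun r _ => ?_
  rw [P_add r H₁ H₂]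
  ring

theorem E_smul (n : ℕ) (c : ℂ) (h : ℍ → ℂ) (x y : ℂ) (z : ℍ) :
    E n (c • h) x y z = c * E n h x y z := by
  unfold E
  rw [Finset.mul_sum]
  refine Finset.sum_congr rfl fun r _ => ?_
  rw [P_smul]
  ring

theorem E_sum (n : ℕ) {ι : Type*} (s : Finset ι) (h : ι → ℍ → ℂ) (H : ∀ i ∈ s, IsAdm (h i))
    (x y : ℂ) (z : ℍ) : E n (∑ i ∈ s, h i) x y z = ∑ i ∈ s, E n (h i) x y z := by
  unfold E
  rw [Finset.sum_comm]
  refine Finset.sum_congr rfl fun r _ => ?_
  rw [P_sum r s h H, Finset.mul_sum]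

end Fermat.Agent.S22
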