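/-
S22 analytic half (helper7): Theorem T (I3), general `α ∈ GL₂⁺(ℝ)`.
Uses only (A1) `hasDerivAt_P` from AnCore.
-/
import Mathlib
import Fermat.Agent.S22.Defs
import Fermat.Agent.S22.AnCore

set_option autoImplicit false

noncomputable section

open UpperHalfPlane ModularForm Filter Complex MeasureTheory
open scoped MatrixGroups ModularForm Manifold Topology

namespace Fermat.Agent.S22

namespace AnTAux

/-- Derivative of the Möbius transformation attached to `α`. -/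
theorem hasDerivAt_moebius (α : GL (Fin 2) ℝ) (z : ℍ) :
    HasDerivAt (fun w : ℂ => num α w / denom α w)
      ((α.det.val : ℂ) / (denom α z) ^ 2) (z : ℂ) := by
  have hd : denom α z ≠ 0 := denom_ne_zero α z
  have h1 : HasDerivAt (fun w : ℂ => num α w) ((α 0 0 : ℝ) : ℂ) (z : ℂ) := by
    unfold num
    simpa using ((hasDerivAt_id (z : ℂ)).const_mul ((α 0 0 : ℝ) : ℂ)).add_const ((α 0 1 : ℝ) : ℂ)
  have h2 : HasDerivAt (fun w : ℂ => denom α w) ((α 1 0 : ℝ) : ℂ) (z : ℂ) := by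
    unfold denom
    simpa using ((hasDerivAt_id (z : ℂ)).const_mul ((α 1 0 : ℝ) : ℂ)).add_const ((α 1 1 : ℝ) : ℂ)
  have hdet : (α.det.val : ℂ) = ((α 0 0 : ℝ) : ℂ) * ((α 1 1 : ℝ) : ℂ) -
      ((α 0 1 : ℝ) : ℂ) * ((α 1 0 : ℝ) : ℂ) := by
    rw [Matrix.GeneralLinearGroup.val_det_apply, Matrix.det_fin_two]
    push_cast
    ring
  refine (h1.div h2 hd).congr_deriv ?_
  rw [hdet]
  unfold num denom
  ring

/-- Derivative of `w ↦ P r h (α • w)`. -/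
theorem hasDerivAt_P_smul {h : ℍ → ℂ} (H : IsAdm h) (r : ℕ) (α : GL (Fin 2) ℝ)
    (hα : 0 < α.det.val) (z : ℍ) :
    HasDerivAt (fun w : ℂ => P r h (α • ofComplex w))
      (h (α • z) * ((α • z : ℍ) : ℂ) ^ r * ((α.det.val : ℂ) / (denom α z) ^ 2)) (z : ℂ) := by
  have h1 := hasDerivAt_P H r (α • z)
  have hm := hasDerivAt_moebius α z
  have hz : ((α • z : ℍ) : ℂ) = num α z / denom α z := coe_smul_of_det_pos hα z
  rw [hz] at h1
  have hcomp := HasDerivAt.comp (z : ℂ) h1 hm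
  rw [← hz] at hcomp
  refine hcomp.congr_of_eventuallyEq ?_
  filter_upwards [isOpen_upperHalfPlaneSet.mem_nhds z.im_pos] with w hw
  simp only [Function.comp_apply]
  rw [ofComplex_apply_of_im_pos hw, ← coe_smul_of_det_pos hα ⟨w, hw⟩, ofComplex_apply]

/-- Derivative of `w ↦ E n h X Y w`. -/
theorem hasDerivAt_E {h : ℍ → ℂ} (H : IsAdm h) (n : ℕ) (X Y : ℂ) (z : ℍ) :
    HasDerivAt (fun w : ℂ => E n h X Y (ofComplex w)) (h z * (X - (z : ℂ) * Y) ^ n) (z : ℂ) := by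
  unfold E
  have hr : ∀ r ∈ Finset.range (n + 1), HasDerivAt
      (fun w : ℂ => (n.choose r : ℂ) * X ^ (n - r) * (-Y) ^ r * P r h (ofComplex w))
      ((n.choose r : ℂ) * X ^ (n - r) * (-Y) ^ r * (h z * (z : ℂ) ^ r)) (z : ℂ) :=
    fun r _ => (hasDerivAt_P H r z).const_mul _
  refine (HasDerivAt.fun_sum hr).congr_deriv ?_
  rw [show X - (z : ℂ) * Y = (z : ℂ) * (-Y) + X by ring, add_pow, Finset.mul_sum]
  refine Finset.sum_congr rfl fun r _ => ?_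
  rw [mul_pow]
  ring

/-- Derivative of `w ↦ E n h X Y (α • w)`. -/
theorem hasDerivAt_E_smul {h : ℍ → ℂ} (H : IsAdm h) (n : ℕ) (α : GL (Fin 2) ℝ)
    (hα : 0 < α.det.val) (X Y : ℂ) (z : ℍ) :
    HasDerivAt (fun w : ℂ => E n h X Y (α • ofComplex w))
      (h (α • z) * (X - ((α • z : ℍ) : ℂ) * Y) ^ n * ((α.det.val : ℂ) / (denom α z) ^ 2))
      (z : ℂ) := by
  unfold E
  have hr : ∀ r ∈ Finset.range (n + 1), HasDerivAt
      (fun w : ℂ => (n.choose r : ℂ) * X ^ (n - r) * (-Y) ^ r * P r h (α • ofComplex w))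
      ((n.choose r : ℂ) * X ^ (n - r) * (-Y) ^ r *
        (h (α • z) * ((α • z : ℍ) : ℂ) ^ r * ((α.det.val : ℂ) / (denom α z) ^ 2))) (z : ℂ) :=
    fun r _ => (hasDerivAt_P_smul H r α hα z).const_mul _
  refine (HasDerivAt.fun_sum hr).congr_deriv ?_
  rw [show X - ((α • z : ℍ) : ℂ) * Y = ((α • z : ℍ) : ℂ) * (-Y) + X by ring, add_pow,
    Finset.mul_sum, Finset.sum_mul]
  refine Finset.sum_congr rfl fun r _ => ?_
  rw [mul_pow]
  ring

/-- The key algebraic identity behind Theorem T. -/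
theorem slash_mul_pow_eq (n : ℕ) (h : ℍ → ℂ) (α : GL (Fin 2) ℝ) (hα : 0 < α.det.val)
    (x y : ℂ) (z : ℍ) :
    h (α • z) * (((α 0 0 : ℝ) * x + (α 0 1 : ℝ) * y) -
        ((α • z : ℍ) : ℂ) * ((α 1 0 : ℝ) * x + (α 1 1 : ℝ) * y)) ^ n *
      ((α.det.val : ℂ) / (denom α z) ^ 2)
    = (h ∣[(n : ℤ) + 2] α) z * (x - (z : ℂ) * y) ^ n := by
  have hd : denom α z ≠ 0 := denom_ne_zero α z
  have hdet : (α.det.val : ℂ) = ((α 0 0 : ℝ) : ℂ) * ((α 1 1 : ℝ) : ℂ) -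
      ((α 0 1 : ℝ) : ℂ) * ((α 1 0 : ℝ) : ℂ) := by
    rw [Matrix.GeneralLinearGroup.val_det_apply, Matrix.det_fin_two]
    push_cast
    ring
  have hz : ((α • z : ℍ) : ℂ) = num α z / denom α z := coe_smul_of_det_pos hα z
  have key : ((α 0 0 : ℝ) * x + (α 0 1 : ℝ) * y) -
        ((α • z : ℍ) : ℂ) * ((α 1 0 : ℝ) * x + (α 1 1 : ℝ) * y)
      = (α.det.val : ℂ) * (x - (z : ℂ) * y) / denom α z := by
    have hnum : num α z = (α 0 0 : ℝ) * (z : ℂ) + (α 0 1 : ℝ) := rfl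
    have hden : denom α z = (α 1 0 : ℝ) * (z : ℂ) + (α 1 1 : ℝ) := rfl
    rw [hz, hdet, eq_div_iff hd, sub_mul, mul_comm (num α z / denom α z) _, mul_assoc,
      div_mul_cancel₀ _ hd, hnum, hden]
    ring
  rw [key, ModularForm.slash_apply, UpperHalfPlane.σ, if_pos hα, ContinuousAlgEquiv.refl_apply,
    abs_of_pos hα]
  have e1 : ((n : ℤ) + 2 - 1) = ((n + 1 : ℕ) : ℤ) := by push_cast; ring
  have e2 : (-((n : ℤ) + 2)) = -((n + 2 : ℕ) : ℤ) := by push_cast; ring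
  rw [e1, e2, zpow_natCast, zpow_neg, zpow_natCast, div_pow, mul_pow]
  field_simp
  ring

end AnTAux

open AnTAux

/-! ### (I3) Theorem T: transformation under `GL₂⁺(ℝ)` -/

/-- **Theorem T (general).** `z ↦ E n h (α·(x,y)) (α • z)` and `E n (h ∣[n+2] α) (x,y)` are both
primitives of `(h ∣[n+2] α)(z) (x - z y)^n`, hence differ by a constant. -/
theorem E_slash (n : ℕ) {h : ℍ → ℂ} (α : GL (Fin 2) ℝ) (hα : 0 < α.det.val)
    (H : IsAdm h) (Hα : IsAdm (h ∣[(n : ℤ) + 2] α)) (x y : ℂ) :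
    ∃ c : ℂ, ∀ z : ℍ,
      E n h ((α 0 0 : ℝ) * x + (α 0 1 : ℝ) * y) ((α 1 0 : ℝ) * x + (α 1 1 : ℝ) * y) (α • z)
        - E n (h ∣[(n : ℤ) + 2] α) x y z = c := by
  let Φ : ℂ → ℂ := fun w =>
    E n h ((α 0 0 : ℝ) * x + (α 0 1 : ℝ) * y) ((α 1 0 : ℝ) * x + (α 1 1 : ℝ) * y) (α • ofComplex w)
      - E n (h ∣[(n : ℤ) + 2] α) x y (ofComplex w)
  have hΦ : ∀ w ∈ upperHalfPlaneSet, HasDerivAt Φ 0 w := by
    intro w hw
    have h1 := hasDerivAt_E_smul H n α hα ((α 0 0 : ℝ) * x + (α 0 1 : ℝ) * y)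
      ((α 1 0 : ℝ) * x + (α 1 1 : ℝ) * y) ⟨w, hw⟩
    have h2 := hasDerivAt_E Hα n x y ⟨w, hw⟩
    have h3 := h1.sub h2
    rw [slash_mul_pow_eq n h α hα x y ⟨w, hw⟩, sub_self] at h3
    exact h3
  have hconst : ∀ w ∈ upperHalfPlaneSet, Φ w = Φ Complex.I := by
    intro w hw
    refine IsOpen.is_const_of_fderiv_eq_zero (𝕜 := ℂ) isOpen_upperHalfPlaneSet
      (convex_halfSpace_im_gt 0).isPreconnected
      (fun u hu => (hΦ u hu).differentiableAt.differentiableWithinAt) (fun u hu => ?_) hw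
      (by simp [upperHalfPlaneSet])
    have := (hΦ u hu).hasFDerivAt.fderiv
    rw [this]
    ext
    simp
  refine ⟨Φ Complex.I, fun z => ?_⟩
  have := hconst (z : ℂ) z.im_pos
  simpa [Φ, ofComplex_apply] using this

end Fermat.Agent.S22
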