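/-
S22 analytic half (helper7): Theorem T for `SL(2,ℤ)` (I3) and the upper-triangular case (I4).
Uses `E_slash` (AnT), (A2) `tendsto_P_vertical` (AnCore), `IsAdm.slash_upper`, `Nice.isAdm` (AnAdm).
-/
import Mathlib
import Fermat.Prelude.Def_ModularForm_HeckeOperator
import Fermat.Agent.S22.Defs
import Fermat.Agent.S22.AnCore
import Fermat.Agent.S22.AnAdm
import Fermat.Agent.S22.AnT

set_option autoImplicit false

noncomputable section

open UpperHalfPlane ModularForm Filter Complex MeasureTheory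
open scoped MatrixGroups ModularForm Manifold Topology

namespace Fermat.Agent.S22

/-- **(I3)** Theorem T for `SL(2,ℤ)`, in the `z`, `z'` form. -/
theorem E_slash_SL (n : ℕ) {h : ℍ → ℂ} (H : Nice n h) (g : SL(2, ℤ)) (x y : ℂ) (z z' : ℍ) :
    E n h ((g 0 0 : ℤ) * x + (g 0 1 : ℤ) * y) ((g 1 0 : ℤ) * x + (g 1 1 : ℤ) * y) (g • z)
        - E n (h ∣[(n : ℤ) + 2] g) x y z
      = E n h ((g 0 0 : ℤ) * x + (g 0 1 : ℤ) * y) ((g 1 0 : ℤ) * x + (g 1 1 : ℤ) * y) (g • z')
        - E n (h ∣[(n : ℤ) + 2] g) x y z' := by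
  have Hh : IsAdm h := H.isAdm
  have Hg : IsAdm (h ∣[(n : ℤ) + 2] (g : GL (Fin 2) ℝ)) := H g
  obtain ⟨c, hc⟩ := E_slash n (g : GL (Fin 2) ℝ) (by simp) Hh Hg x y
  have e : ∀ i j, (((g : GL (Fin 2) ℝ) i j : ℝ) : ℂ) = ((g i j : ℤ) : ℂ) := by
    intro i j; simp
  simp only [e] at hc
  exact (hc z).trans (hc z').symm

namespace AnTAux

theorem upper_aux (a b d t : ℝ) (hd0 : d ≠ 0) :
    ((a : ℂ) * ((t : ℂ) * Complex.I) + (b : ℂ)) /
        (((0 : ℝ) : ℂ) * ((t : ℂ) * Complex.I) + (d : ℂ)) =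
      ((b / d : ℝ) : ℂ) + ((a / d * t : ℝ) : ℂ) * Complex.I := by
  have hd0' : (d : ℂ) ≠ 0 := by exact_mod_cast hd0
  push_cast
  rw [zero_mul, zero_add]
  field_simp
  ring

end AnTAux

open AnTAux

/-! ### (I4) upper-triangular case: the constant is `0` -/

/-- **Theorem T, upper-triangular case (general real form)**. -/
theorem E_slash_upper (n : ℕ) {h : ℍ → ℂ} (β : GL (Fin 2) ℝ) (hdet : 0 < β.det.val)
    (hβ : β 1 0 = 0) (H : IsAdm h) (x y : ℂ) (z : ℍ) :
    E n h ((β 0 0 : ℝ) * x + (β 0 1 : ℝ) * y) ((β 1 1 : ℝ) * y) (β • z)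
      = E n (h ∣[(n : ℤ) + 2] β) x y z := by
  have Hβ := IsAdm.slash_upper ((n : ℤ) + 2) H hdet hβ
  obtain ⟨c, hc⟩ := E_slash n β hdet H Hβ x y
  have hY : ((β 1 0 : ℝ) : ℂ) * x + ((β 1 1 : ℝ) : ℂ) * y = ((β 1 1 : ℝ) : ℂ) * y := by
    rw [hβ]; simp
  rw [hY] at hc
  suffices hc0 : c = 0 by rw [← sub_eq_zero, hc z, hc0]
  have hdet' : β.det.val = β 0 0 * β 1 1 := by
    rw [Matrix.GeneralLinearGroup.val_det_apply, Matrix.det_fin_two, hβ]; ring
  have had : 0 < β 0 0 * β 1 1 := hdet' ▸ hdet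
  have hd0 : β 1 1 ≠ 0 := right_ne_zero_of_mul had.ne'
  have hpos : 0 < β 0 0 / β 1 1 := by
    have h1 : β 0 0 / β 1 1 = β 0 0 * β 1 1 / (β 1 1) ^ 2 := by field_simp
    rw [h1]
    exact div_pos had (by positivity)
  have hsmul : ∀ t : ℝ, 0 < t → β • ofComplex ((t : ℂ) * Complex.I) =
      ofComplex (((β 0 1 / β 1 1 : ℝ) : ℂ) + ((β 0 0 / β 1 1 * t : ℝ) : ℂ) * Complex.I) := by
    intro t ht
    have him : 0 < ((t : ℂ) * Complex.I).im := by simpa using ht
    rw [ofComplex_apply_of_im_pos him, ← ofComplex_apply (β • _), coe_smul_of_det_pos hdet]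
    congr 1
    simp only [num, denom, hβ]
    exact upper_aux (β 0 0) (β 0 1) (β 1 1) t hd0
  have lim1 : ∀ r, Tendsto (fun t : ℝ => P r h (β • ofComplex ((t : ℂ) * Complex.I)))
      atTop (𝓝 0) := by
    intro r
    have h2 := (tendsto_P_vertical H r (β 0 1 / β 1 1)).comp
      (tendsto_id.const_mul_atTop hpos)
    refine h2.congr' ?_
    filter_upwards [eventually_gt_atTop 0] with t ht
    simp only [Function.comp_apply, id]
    rw [hsmul t ht]
  have lim2 : ∀ r, Tendsto (fun t : ℝ => P r (h ∣[(n : ℤ) + 2] β)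
      (ofComplex ((t : ℂ) * Complex.I))) atTop (𝓝 0) := by
    intro r
    have h2 := tendsto_P_vertical Hβ r 0
    simpa using h2
  have limE : Tendsto (fun t : ℝ =>
      E n h ((β 0 0 : ℝ) * x + (β 0 1 : ℝ) * y) ((β 1 1 : ℝ) * y)
          (β • ofComplex ((t : ℂ) * Complex.I))
        - E n (h ∣[(n : ℤ) + 2] β) x y (ofComplex ((t : ℂ) * Complex.I))) atTop (𝓝 0) := by
    unfold E
    have a1 := tendsto_finsetSum (Finset.range (n + 1)) fun r _ =>
      (lim1 r).const_mul ((n.choose r : ℂ) * ((β 0 0 : ℝ) * x + (β 0 1 : ℝ) * y) ^ (n - r) *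
        (-(((β 1 1 : ℝ) : ℂ) * y)) ^ r)
    have a2 := tendsto_finsetSum (Finset.range (n + 1)) fun r _ =>
      (lim2 r).const_mul ((n.choose r : ℂ) * x ^ (n - r) * (-y) ^ r)
    simpa using a1.sub a2
  have hcc : Tendsto (fun _ : ℝ => c) atTop (𝓝 0) := limE.congr fun t => hc _
  exact tendsto_nhds_unique tendsto_const_nhds hcc

/-- **(I4)** for the Prelude's `ModularForm.upperTriangularGL a b d`, integers `a, d > 0`. -/
theorem E_slash_UT (n : ℕ) {h : ℍ → ℂ} (H : IsAdm h) (a b d : ℤ) (ha : 0 < a) (hd : 0 < d)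
    (x y : ℂ) (z : ℍ) :
    E n h ((a : ℂ) * x + (b : ℂ) * y) ((d : ℂ) * y)
        (ModularForm.upperTriangularGL (a : ℝ) (b : ℝ) (d : ℝ)
          (mul_ne_zero (by exact_mod_cast ha.ne') (by exact_mod_cast hd.ne')) • z)
      = E n (h ∣[(n : ℤ) + 2]
          ModularForm.upperTriangularGL (a : ℝ) (b : ℝ) (d : ℝ)
            (mul_ne_zero (by exact_mod_cast ha.ne') (by exact_mod_cast hd.ne'))) x y z := by
  have hdet : 0 < (ModularForm.upperTriangularGL (a : ℝ) (b : ℝ) (d : ℝ)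
      (mul_ne_zero (by exact_mod_cast ha.ne') (by exact_mod_cast hd.ne'))).det.val := by
    rw [Matrix.GeneralLinearGroup.val_det_apply, ModularForm.val_upperTriangularGL,
      Matrix.det_fin_two_of]
    have : (0 : ℝ) < a * d := by exact_mod_cast mul_pos ha hd
    simpa using this
  have h := E_slash_upper n (ModularForm.upperTriangularGL (a : ℝ) (b : ℝ) (d : ℝ)
      (mul_ne_zero (by exact_mod_cast ha.ne') (by exact_mod_cast hd.ne'))) hdet
      (by simp [ModularForm.upperTriangularGL]) H x y z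
  simpa [ModularForm.upperTriangularGL] using h

end Fermat.Agent.S22
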