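/-
S22 analytic interface (design owner: helper5): aggregator.  The analytic statements live in
* `AnCore.lean`  (A0)-(A3): `integrableOn_P`, `hasDerivAt_P`, `tendsto_P_vertical`,
                  `E_contraction_eq`, `isZeroAtImInfty_E_contraction`
* `AnAdm.lean`   (I1): `IsAdm.*`, `isAdm_cuspForm_slash`, `Nice.*`, `nice_cuspForm`
* `AnLin.lean`   (I2): `E_def`, `P_add`, `P_smul`, `P_sum`, `E_add`, `E_smul`, `E_sum`
* `AnT.lean`     (I3): `E_slash`
* `AnT2.lean`    (I3)-(I4): `E_slash_SL`, `E_slash_upper`, `E_slash_UT`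
Definitions `IsAdm`, `P`, `E`, `Nice` live in `Defs.lean`.
-/
import Fermat.Agent.S22.Defs
import Fermat.Agent.S22.AnCore
import Fermat.Agent.S22.AnAdm
import Fermat.Agent.S22.AnLin
import Fermat.Agent.S22.AnT
import Fermat.Agent.S22.AnT2
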