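import Fermat.Prelude.Def_CuspForm_HeckeAlgebra
import Fermat.Prelude.Thm_ModularForm_sturm_bound_Gamma0
import Fermat.Prelude.Thm_CongruenceSubgroup_one_mem_strictPeriods_Gamma0

set_option autoImplicit false
open CuspForm ModularFormClass UpperHalfPlane
open ModularForm
open scoped MatrixGroups Manifold

namespace Fermat.Agent.S22

/-- Cusp forms on `Γ₀(N)` of weight `k ≤ 0` vanish (Sturm bound with bound `0`). -/
theorem cuspForm_eq_zero_of_weight_nonpos (N : ℕ) [NeZero N] {k : ℤ} (hk : k ≤ 0)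
    (f : CuspForm (CongruenceSubgroup.Gamma0 N) k) : f = 0 := by
  have h0 : (f : ModularForm (CongruenceSubgroup.Gamma0 N) k) = 0 := by
    apply ModularForm.sturm_bound_Gamma0 N
    intro n hn
    have h6 : (k * ((CongruenceSubgroup.Gamma0 N).index : ℤ)).toNat / 12 = 0 := by
      have : k * ((CongruenceSubgroup.Gamma0 N).index : ℤ) ≤ 0 :=
        mul_nonpos_of_nonpos_of_nonneg hk (Int.natCast_nonneg _)
      rw [Int.toNat_of_nonpos this]
    rw [h6] at hn
    obtain rfl : n = 0 := by omega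
    exact CuspFormClass.qExpansion_coeff_zero f one_pos
      (CongruenceSubgroup.one_mem_strictPeriods_Gamma0 N)
  ext z
  have := congrArg (fun g : ModularForm (CongruenceSubgroup.Gamma0 N) k => g z) h0
  simpa using this

theorem neg_one_mem_Gamma0 (N : ℕ) :
    (-1 : GL (Fin 2) ℝ) ∈ ((CongruenceSubgroup.Gamma0 N : Subgroup SL(2, ℤ)) :
      Subgroup (GL (Fin 2) ℝ)) := by
  refine ⟨-1, ?_, ?_⟩
  · rw [SetLike.mem_coe, CongruenceSubgroup.Gamma0_mem]
    simp
  · ext i j
    simp

/-- Cusp forms on `Γ₀(N)` of odd weight vanish (since `-1 ∈ Γ₀(N)`). -/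
theorem cuspForm_eq_zero_of_weight_odd (N : ℕ) {k : ℤ} (hk : Odd k)
    (f : CuspForm (CongruenceSubgroup.Gamma0 N) k) : f = 0 := by
  have h0 : (f : ModularForm (CongruenceSubgroup.Gamma0 N) k) = 0 :=
    ModularForm.eq_zero_of_neg_one_mem (neg_one_mem_Gamma0 N) hk _
  ext z
  have := congrArg (fun g : ModularForm (CongruenceSubgroup.Gamma0 N) k => g z) h0
  simpa using this

/-- If the space of cusp forms is trivial, the Hecke algebra is a finite `ℤ`-module. -/
theorem heckeAlgebra_finite_of_forall_eq_zero (N : ℕ) [NeZero N] (k : ℤ) (S : Set ℕ)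
    (h : ∀ f : CuspForm (CongruenceSubgroup.Gamma0 N) k, f = 0) :
    Module.Finite ℤ (CuspForm.heckeAlgebra N k S) := by
  have : Subsingleton (CuspForm (CongruenceSubgroup.Gamma0 N) k) :=
    ⟨fun f g => (h f).trans (h g).symm⟩
  have : Subsingleton (Module.End ℂ (CuspForm (CongruenceSubgroup.Gamma0 N) k)) :=
    ⟨fun a b => LinearMap.ext fun x => Subsingleton.elim _ _⟩
  have : Subsingleton (CuspForm.heckeAlgebra N k S) :=
    ⟨fun a b => Subtype.ext (Subsingleton.elim _ _)⟩
  exact Module.Finite.of_finite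

theorem heckeAlgebra_finite_of_weight_nonpos (N : ℕ) [NeZero N] {k : ℤ} (hk : k ≤ 0)
    (S : Set ℕ) : Module.Finite ℤ (CuspForm.heckeAlgebra N k S) :=
  heckeAlgebra_finite_of_forall_eq_zero N k S (cuspForm_eq_zero_of_weight_nonpos N hk)

theorem heckeAlgebra_finite_of_weight_odd (N : ℕ) [NeZero N] {k : ℤ} (hk : Odd k)
    (S : Set ℕ) : Module.Finite ℤ (CuspForm.heckeAlgebra N k S) :=
  heckeAlgebra_finite_of_forall_eq_zero N k S (cuspForm_eq_zero_of_weight_odd N hk)

/-- Packaging + Sturm: a holomorphic function on `ℍ` which is weight-`k` slash-invariant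
under `Γ₀(N)` and vanishes at `i∞` after slashing with every `g ∈ SL(2, ℤ)` is zero when
`k ≤ 0`. -/
theorem eq_zero_of_slash_invariant_of_isZeroAtImInfty (N : ℕ) [NeZero N] {k : ℤ} (hk : k ≤ 0)
    (F : ℍ → ℂ) (hF : MDiff F)
    (hinv : ∀ γ : SL(2, ℤ), γ ∈ CongruenceSubgroup.Gamma0 N → F ∣[k] γ = F)
    (hzero : ∀ g : SL(2, ℤ), IsZeroAtImInfty (F ∣[k] g)) : F = 0 := by
  let f : CuspForm (CongruenceSubgroup.Gamma0 N) k :=
    { toFun := F
      slash_action_eq' := by
        rintro _ ⟨γ, hγ, rfl⟩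
        exact hinv γ hγ
      holo' := hF
      zero_at_cusps' := fun {c} hc => by
        have hc' := (Subgroup.IsArithmetic.isCusp_iff_isCusp_SL2Z _).mp hc
        exact (OnePoint.isZeroAt_iff_forall_SL2Z hc').mpr fun γ _ => hzero γ }
  have hf : f = 0 := cuspForm_eq_zero_of_weight_nonpos N hk f
  have : (f : ℍ → ℂ) = 0 := by rw [hf]; rfl
  exact this

end Fermat.Agent.S22
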