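/-
S22 (helper2): Theorem F — the period constants separate cusp forms.
Uses only `hasDerivAt_P` and `isZeroAtImInfty_E_contraction` from the analytic core.
-/
import Mathlib
import Fermat.Agent.S22.Defs
import Fermat.Agent.S22.AnCore
import Fermat.Agent.S22.LowWeight

set_option autoImplicit false

noncomputable section

open UpperHalfPlane ModularForm Filter Complex
open scoped MatrixGroups ModularForm Manifold Topology

namespace Fermat.Agent.S22

/-- Homogeneity of `E` in `(x, y)`. -/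
theorem E_homogeneous (n : ℕ) (h : ℍ → ℂ) (c x y : ℂ) (z : ℍ) :
    E n h (c * x) (c * y) z = c ^ n * E n h x y z := by
  unfold E
  rw [Finset.mul_sum]
  refine Finset.sum_congr rfl fun r hr => ?_
  have hr' : r ≤ n := Nat.lt_succ_iff.mp (Finset.mem_range.mp hr)
  have h1 : c ^ n = c ^ (n - r) * c ^ r := by rw [← pow_add, Nat.sub_add_cancel hr']
  have h2 : (-(c * y)) ^ r = c ^ r * (-y) ^ r := by rw [← mul_pow]; ring
  rw [h1, mul_pow, h2]
  ring

/-- `x ↦ E n h (a x + b) (c x + d) z` is a polynomial function. -/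
theorem exists_poly_E (n : ℕ) (h : ℍ → ℂ) (a b c d : ℂ) (z : ℍ) :
    ∃ p : Polynomial ℂ, ∀ x : ℂ, p.eval x = E n h (a * x + b) (c * x + d) z := by
  refine ⟨∑ r ∈ Finset.range (n + 1), Polynomial.C (n.choose r : ℂ) *
      (Polynomial.C a * Polynomial.X + Polynomial.C b) ^ (n - r) *
      (-(Polynomial.C c * Polynomial.X + Polynomial.C d)) ^ r * Polynomial.C (P r h z),
    fun x => ?_⟩
  simp [E, Polynomial.eval_finsetSum]

theorem poly_eq_of_forall_int {p q : Polynomial ℂ}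
    (h : ∀ m : ℤ, p.eval (m : ℂ) = q.eval (m : ℂ)) : p = q := by
  rw [← sub_eq_zero]
  apply Polynomial.eq_zero_of_infinite_isRoot
  apply Set.Infinite.mono (s := Set.range (Int.cast : ℤ → ℂ))
  · rintro _ ⟨m, rfl⟩
    simp [Polynomial.IsRoot, h m]
  · exact Set.infinite_range_of_injective Int.cast_injective

theorem hasDerivAt_E_contraction_raw {h : ℍ → ℂ} (H : IsAdm h) (n : ℕ) (z : ℍ) :
    HasDerivAt (fun w : ℂ => E n h w 1 (ofComplex w))
      (∑ r ∈ Finset.range (n + 1),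
        (((n.choose r : ℂ) * (((n - r : ℕ) : ℂ) * (z : ℂ) ^ (n - r - 1))) * (-1) ^ r * P r h z
          + ((n.choose r : ℂ) * (z : ℂ) ^ (n - r) * (-1) ^ r) * (h z * (z : ℂ) ^ r))) (z : ℂ) := by
  unfold E
  apply HasDerivAt.fun_sum
  intro r _
  have h1 := (((hasDerivAt_pow (n - r) (z : ℂ)).const_mul (n.choose r : ℂ)).mul_const
    ((-1 : ℂ) ^ r)).mul (hasDerivAt_P H r z)
  simp only [ofComplex_apply] at h1
  exact h1

theorem alternating_choose_sum (m : ℕ) :
    ∑ r ∈ Finset.range (m + 2), ((m + 1).choose r : ℂ) * (-1) ^ r = 0 := by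
  have h := add_pow (-1 : ℂ) 1 (m + 1)
  simp only [one_pow, mul_one] at h
  rw [show (-1 : ℂ) + 1 = 0 by ring, zero_pow (Nat.succ_ne_zero m)] at h
  rw [h]
  refine Finset.sum_congr rfl fun r _ => ?_
  ring

/-- Derivative of the contraction in degree `0`. -/
theorem hasDerivAt_E_contraction_zero {h : ℍ → ℂ} (H : IsAdm h) (z : ℍ) :
    HasDerivAt (fun w : ℂ => E 0 h w 1 (ofComplex w)) (h z) (z : ℂ) := by
  have h1 := hasDerivAt_E_contraction_raw H 0 z
  simpa using h1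

/-- Derivative of the contraction in degree `m + 1`. -/
theorem hasDerivAt_E_contraction_succ {h : ℍ → ℂ} (H : IsAdm h) (m : ℕ) (z : ℍ) :
    HasDerivAt (fun w : ℂ => E (m + 1) h w 1 (ofComplex w))
      (((m : ℂ) + 1) * E m h (z : ℂ) 1 z) (z : ℂ) := by
  have h1 := hasDerivAt_E_contraction_raw H (m + 1) z
  convert h1 using 1
  rw [Finset.sum_add_distrib]
  have hB : ∑ r ∈ Finset.range (m + 1 + 1),
      (((m + 1).choose r : ℂ) * (z : ℂ) ^ (m + 1 - r) * (-1) ^ r) * (h z * (z : ℂ) ^ r) = 0 := by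
    have : ∀ r ∈ Finset.range (m + 1 + 1),
        (((m + 1).choose r : ℂ) * (z : ℂ) ^ (m + 1 - r) * (-1) ^ r) * (h z * (z : ℂ) ^ r)
          = (h z * (z : ℂ) ^ (m + 1)) * (((m + 1).choose r : ℂ) * (-1) ^ r) := by
      intro r hr
      have hr' : r ≤ m + 1 := Nat.lt_succ_iff.mp (Finset.mem_range.mp hr)
      have : (z : ℂ) ^ (m + 1) = (z : ℂ) ^ (m + 1 - r) * (z : ℂ) ^ r := by
        rw [← pow_add, Nat.sub_add_cancel hr']
      rw [this]; ring
    rw [Finset.sum_congr rfl this, ← Finset.mul_sum, alternating_choose_sum, mul_zero]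
  rw [hB, add_zero, Finset.sum_range_succ]
  have hlast : (((m + 1).choose (m + 1) : ℂ) * (((m + 1 - (m + 1) : ℕ) : ℂ) *
      (z : ℂ) ^ (m + 1 - (m + 1) - 1))) * (-1) ^ (m + 1) * P (m + 1) h z = 0 := by
    simp
  rw [hlast, add_zero]
  unfold E
  rw [Finset.mul_sum]
  refine Finset.sum_congr rfl fun r hr => ?_
  have hr' : r ≤ m := Nat.lt_succ_iff.mp (Finset.mem_range.mp hr)
  have hc : ((m + 1).choose r : ℂ) * ((m + 1 - r : ℕ) : ℂ) = ((m : ℂ) + 1) * (m.choose r : ℂ) := by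
    have := Nat.choose_mul_succ_eq m r
    have h2 : ((m.choose r * (m + 1) : ℕ) : ℂ) = (((m + 1).choose r * (m + 1 - r) : ℕ) : ℂ) := by
      rw [this]
    push_cast at h2
    rw [← h2]; ring
  have he : m + 1 - r - 1 = m - r := by omega
  rw [he]
  linear_combination (-((z : ℂ) ^ (m - r) * (-1) ^ r * P r h z)) * hc


/-- If the contraction of degree `m` vanishes identically then `h = 0`. -/
theorem eq_zero_of_E_contraction_eq_zero {h : ℍ → ℂ} (H : IsAdm h) :
    ∀ m : ℕ, (∀ z : ℍ, E m h (z : ℂ) 1 z = 0) → ∀ z : ℍ, h z = 0 := by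
  intro m
  induction m with
  | zero =>
    intro h0 z
    have h1 := hasDerivAt_E_contraction_zero H z
    have h2 : HasDerivAt (fun w : ℂ => E 0 h w 1 (ofComplex w)) 0 (z : ℂ) := by
      apply (hasDerivAt_const (z : ℂ) (0 : ℂ)).congr_of_eventuallyEq
      filter_upwards [isOpen_upperHalfPlaneSet.mem_nhds z.im_pos] with w hw
      have := h0 ⟨w, hw⟩
      rw [ofComplex_apply_of_im_pos hw]
      exact this
    exact h1.unique h2
  | succ m ih =>
    intro h0 z
    apply ih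
    intro z
    have h1 := hasDerivAt_E_contraction_succ H m z
    have h2 : HasDerivAt (fun w : ℂ => E (m + 1) h w 1 (ofComplex w)) 0 (z : ℂ) := by
      apply (hasDerivAt_const (z : ℂ) (0 : ℂ)).congr_of_eventuallyEq
      filter_upwards [isOpen_upperHalfPlaneSet.mem_nhds z.im_pos] with w hw
      have := h0 ⟨w, hw⟩
      rw [ofComplex_apply_of_im_pos hw]
      exact this
    have h3 := h1.unique h2
    have : (m : ℂ) + 1 ≠ 0 := Nat.cast_add_one_ne_zero m
    exact (mul_eq_zero.mp h3).resolve_left this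

/-- The contraction `z ↦ E n h z 1 z` is holomorphic on `ℍ`. -/
theorem mdifferentiable_E_contraction {h : ℍ → ℂ} (H : IsAdm h) (n : ℕ) :
    MDiff (fun z : ℍ => E n h (z : ℂ) 1 z) := by
  rw [UpperHalfPlane.mdifferentiable_iff]
  intro w hw
  have hw' : 0 < w.im := hw
  have h1 := (hasDerivAt_E_contraction_raw H n ⟨w, hw'⟩).differentiableAt
  have h2 : DifferentiableAt ℂ ((fun z : ℍ => E n h (z : ℂ) 1 z) ∘ ofComplex) w := by
    refine h1.congr_of_eventuallyEq ?_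
    filter_upwards [isOpen_upperHalfPlaneSet.mem_nhds hw'] with w' hw''
    simp only [Function.comp_apply]
    rw [ofComplex_apply_of_im_pos hw'']
  exact h2.differentiableWithinAt

theorem E_slash_contraction_of_forall_int (n : ℕ) (f : ℍ → ℂ) (g : SL(2, ℤ))
    (H : ∀ (x y : ℤ) (z : ℍ),
      E n f ((g 0 0 : ℤ) * x + (g 0 1 : ℤ) * y) ((g 1 0 : ℤ) * x + (g 1 1 : ℤ) * y) (g • z)
        - E n (f ∣[(n : ℤ) + 2] g) x y z = 0) (z : ℍ) :
    E n f ((g 0 0 : ℤ) * (z : ℂ) + (g 0 1 : ℤ)) ((g 1 0 : ℤ) * (z : ℂ) + (g 1 1 : ℤ)) (g • z)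
      = E n (f ∣[(n : ℤ) + 2] g) (z : ℂ) 1 z := by
  obtain ⟨p₁, hp₁⟩ := exists_poly_E n f (g 0 0 : ℤ) (g 0 1 : ℤ) (g 1 0 : ℤ) (g 1 1 : ℤ) (g • z)
  obtain ⟨p₂, hp₂⟩ := exists_poly_E n (f ∣[(n : ℤ) + 2] g) 1 0 0 1 z
  have hpp : p₁ = p₂ := by
    apply poly_eq_of_forall_int
    intro m
    rw [hp₁, hp₂]
    have := H m 1 z
    simp only [Int.cast_one, mul_one] at this
    simp only [one_mul, add_zero, zero_mul, zero_add]
    exact sub_eq_zero.mp this
  have h1 := hp₁ (z : ℂ)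
  have h2 := hp₂ (z : ℂ)
  simp only [one_mul, add_zero, zero_mul, zero_add] at h2
  rw [← h1, ← h2, hpp]

theorem coe_SL_smul_mul_denom (g : SL(2, ℤ)) (z : ℍ) :
    ((g 1 0 : ℤ) * (z : ℂ) + (g 1 1 : ℤ)) * ((g • z : ℍ) : ℂ)
      = (g 0 0 : ℤ) * (z : ℂ) + (g 0 1 : ℤ) := by
  have hd : ((g 1 0 : ℤ) : ℂ) * (z : ℂ) + (g 1 1 : ℤ) ≠ 0 := by
    have := denom_ne_zero (g : GL (Fin 2) ℝ) z
    simpa [denom] using this
  rw [UpperHalfPlane.coe_specialLinearGroup_apply]
  simp only [algebraMap_int_eq, Int.coe_castRingHom, ofReal_intCast]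
  field_simp

/-- The weight `-n` slash of the contraction of `f` by `g` is the contraction of `f∣g`,
provided all integer periods of `f` along `g` vanish. -/
theorem E_contraction_slash_of_forall_int (n : ℕ) (f : ℍ → ℂ) (g : SL(2, ℤ))
    (H : ∀ (x y : ℤ) (z : ℍ),
      E n f ((g 0 0 : ℤ) * x + (g 0 1 : ℤ) * y) ((g 1 0 : ℤ) * x + (g 1 1 : ℤ) * y) (g • z)
        - E n (f ∣[(n : ℤ) + 2] g) x y z = 0) :
    (fun z : ℍ => E n f (z : ℂ) 1 z) ∣[-(n : ℤ)] g
      = fun z : ℍ => E n (f ∣[(n : ℤ) + 2] g) (z : ℂ) 1 z := by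
  funext z
  rw [ModularForm.SL_slash_apply, ← E_slash_contraction_of_forall_int n f g H z,
    ← coe_SL_smul_mul_denom g z]
  have hden : denom (Matrix.SpecialLinearGroup.toGL
      ((Matrix.SpecialLinearGroup.map (Int.castRingHom ℝ)) g)) ↑z
      = (g 1 0 : ℤ) * (z : ℂ) + (g 1 1 : ℤ) := by
    simp [denom]
  have key := E_homogeneous n f ((g 1 0 : ℤ) * (z : ℂ) + (g 1 1 : ℤ)) ((g • z : ℍ) : ℂ) 1 (g • z)
  rw [mul_one] at key
  rw [key, neg_neg, zpow_natCast, hden]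
  ring

/-- **Theorem F** (separation), with admissibility of the translates as a hypothesis. -/
theorem eq_zero_of_forall_E_slash_eq_of_isAdm (N : ℕ) [NeZero N] (n : ℕ)
    (f : CuspForm (CongruenceSubgroup.Gamma0 N) ((n : ℤ) + 2))
    (hadm : ∀ g : SL(2, ℤ), IsAdm ((f : ℍ → ℂ) ∣[(n : ℤ) + 2] g))
    (H : ∀ (g : SL(2, ℤ)) (x y : ℤ) (z : ℍ),
      E n f ((g 0 0 : ℤ) * x + (g 0 1 : ℤ) * y) ((g 1 0 : ℤ) * x + (g 1 1 : ℤ) * y) (g • z)
        - E n ((f : ℍ → ℂ) ∣[(n : ℤ) + 2] g) x y z = 0) :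
    f = 0 := by
  have hf : IsAdm (f : ℍ → ℂ) := by
    have := hadm 1
    rwa [SlashAction.slash_one] at this
  have hslash : ∀ g : SL(2, ℤ), (fun z : ℍ => E n f (z : ℂ) 1 z) ∣[-(n : ℤ)] g
      = fun z : ℍ => E n ((f : ℍ → ℂ) ∣[(n : ℤ) + 2] g) (z : ℂ) 1 z :=
    fun g => E_contraction_slash_of_forall_int n f g (H g)
  have hF : (fun z : ℍ => E n f (z : ℂ) 1 z) = 0 := by
    apply eq_zero_of_slash_invariant_of_isZeroAtImInfty N (k := -(n : ℤ)) (by omega) _
      (mdifferentiable_E_contraction hf n)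
    · intro γ hγ
      rw [hslash γ]
      have hinv : (f : ℍ → ℂ) ∣[(n : ℤ) + 2] γ = f :=
        SlashInvariantFormClass.slash_action_eq f (Matrix.SpecialLinearGroup.mapGL ℝ γ)
          ⟨γ, hγ, rfl⟩
      rw [hinv]
    · intro g
      rw [hslash g]
      exact isZeroAtImInfty_E_contraction (hadm g) n
  have h0 := eq_zero_of_E_contraction_eq_zero hf n (fun z => congrFun hF z)
  ext z
  exact h0 z

end Fermat.Agent.S22
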