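import Mathlib
import Fermat.Prelude.Def_ModularForm_HeckeOperator
import Fermat.Agent.S22.Defs
import Fermat.Agent.S22.AnInterface
import Fermat.Agent.S22.Hermite
import Fermat.Agent.S22.Separation

/-!
# S22: interface between the analytic half (Eichler integrals) and the algebraic half

GLUE (helper1).  `Nice`, `P`, `E` are the definitions of `Defs.lean`; the analytic statements
come from `AnAdm.lean` / `AnT.lean` (helper5).  This file adds what the algebraic half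
(helper3) uses on top of them:

* `UT a b d ha hd`            : the integral upper triangular matrix in `GL (Fin 2) ℝ`
* `Nice.slash_UT`             : niceness is stable under `∣[n+2] UT a b d ha hd`
* `v n h g m`                 : the period of `h` along `g` on the integer vector `m`
* `E_const`, `E_UT`           : Theorem T in the `mulVec` form
* `eq_zero_of_forall_v_eq_zero` : separation (Theorem F of `Separation.lean`, helper2) in terms of `v`
* `nice_cuspForm'`, `P_add'`, `P_smul'` : variants of the analytic lemmas in the shape of the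
  draft interface (the unprimed `nice_cuspForm N n f`, `P_add r H₁ H₂ z`, `P_smul r c h z`,
  `Nice.slash_SL`, `Nice.add`, `Nice.smul` are those of `AnAdm.lean` / `AnT.lean`).

Weight is `k = n + 2`, written `((n : ℤ) + 2)`.
-/

set_option autoImplicit false

open UpperHalfPlane ModularForm CongruenceSubgroup
open scoped MatrixGroups ModularForm

namespace Fermat.Agent.S22

noncomputable section

/-- Integer upper triangular matrix `!![a, b; 0, d]` with positive diagonal, in `GL(2, ℝ)`. -/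
def UT (a b d : ℤ) (ha : 0 < a) (hd : 0 < d) : GL (Fin 2) ℝ :=
  ModularForm.upperTriangularGL (a : ℝ) (b : ℝ) (d : ℝ)
    (mul_ne_zero (by exact_mod_cast ha.ne') (by exact_mod_cast hd.ne'))

theorem UT_val (a b d : ℤ) (ha : 0 < a) (hd : 0 < d) :
    ((UT a b d ha hd : GL (Fin 2) ℝ) : Matrix (Fin 2) (Fin 2) ℝ) = !![(a : ℝ), (b : ℝ); 0, (d : ℝ)] :=
  rfl

theorem UT_det_pos (a b d : ℤ) (ha : 0 < a) (hd : 0 < d) :
    0 < (UT a b d ha hd).det.val := by
  have h : (UT a b d ha hd).det.val = (a : ℝ) * (d : ℝ) := by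
    rw [Matrix.GeneralLinearGroup.val_det_apply, UT_val, Matrix.det_fin_two_of]
    ring
  rw [h]
  have ha' : (0 : ℝ) < a := by exact_mod_cast ha
  have hd' : (0 : ℝ) < d := by exact_mod_cast hd
  positivity

theorem UT_one_zero (a b d : ℤ) (ha : 0 < a) (hd : 0 < d) : UT a b d ha hd 1 0 = 0 := by
  rfl

/-- Niceness is stable under slashing by integral upper-triangular matrices with positive
diagonal (Hermite factorisation `UT * g = g' * UT'` + `IsAdm.slash_upper`). -/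
theorem Nice.slash_UT {n : ℕ} {h : ℍ → ℂ} (hh : Nice n h) (a b d : ℤ) (ha : 0 < a) (hd : 0 < d) :
    Nice n (h ∣[(n : ℤ) + 2] UT a b d ha hd) := by
  intro g
  obtain ⟨g', a', b', d', ha', hd', -, -, hGL⟩ := hermite a b d ha hd g
  have key : (h ∣[(n : ℤ) + 2] UT a b d ha hd) ∣[(n : ℤ) + 2] g
      = (h ∣[(n : ℤ) + 2] g') ∣[(n : ℤ) + 2] UT a' b' d' ha' hd' := by
    rw [ModularForm.SL_slash, ModularForm.SL_slash, ← SlashAction.slash_mul,
      ← SlashAction.slash_mul]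
    congr 1
    exact hGL _ _
  rw [key]
  exact IsAdm.slash_upper _ (hh g') (UT_det_pos a' b' d' ha' hd') (UT_one_zero a' b' d' ha' hd')

/-- Variant of `nice_cuspForm` with implicit level. -/
theorem nice_cuspForm' {N : ℕ} [NeZero N] (n : ℕ)
    (f : CuspForm (Gamma0 N) ((n : ℤ) + 2)) : Nice n ⇑f :=
  nice_cuspForm N n f

/-- Variant of `P_add` with `Nice` hypotheses. -/
theorem P_add' {n : ℕ} {h₁ h₂ : ℍ → ℂ} (h1 : Nice n h₁) (h2 : Nice n h₂) {r : ℕ} (_hr : r ≤ n)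
    (z : ℍ) : P r (h₁ + h₂) z = P r h₁ z + P r h₂ z :=
  P_add r h1.isAdm h2.isAdm z

/-- Variant of `P_smul` with a `Nice` hypothesis. -/
theorem P_smul' {n : ℕ} {h : ℍ → ℂ} (_hh : Nice n h) (c : ℂ) {r : ℕ} (_hr : r ≤ n) (z : ℍ) :
    P r (c • h) z = c * P r h z :=
  P_smul r c h z

/-- The period of `h` along `g`, evaluated on the integer vector `m`. -/
def v (n : ℕ) (h : ℍ → ℂ) (g : SL(2, ℤ)) (m : Fin 2 → ℤ) : ℂ :=
  E n h ((g.1.mulVec m 0 : ℤ) : ℂ) ((g.1.mulVec m 1 : ℤ) : ℂ) (g • UpperHalfPlane.I)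
    - E n (h ∣[(n : ℤ) + 2] g) (m 0) (m 1) UpperHalfPlane.I

/-- Constancy in `z` (both terms are primitives of `(h∣g)(z) (x - z y)^n`). -/
theorem E_const {n : ℕ} {h : ℍ → ℂ} (hh : Nice n h) (g : SL(2, ℤ)) (m : Fin 2 → ℤ) (z : ℍ) :
    E n h ((g.1.mulVec m 0 : ℤ) : ℂ) ((g.1.mulVec m 1 : ℤ) : ℂ) (g • z)
      - E n (h ∣[(n : ℤ) + 2] g) (m 0) (m 1) z = v n h g m := by
  have h0 : ((g.1.mulVec m 0 : ℤ) : ℂ) = ((g 0 0 : ℤ) : ℂ) * (m 0 : ℂ) + ((g 0 1 : ℤ) : ℂ) * (m 1 : ℂ) := by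
    simp [Matrix.mulVec, dotProduct, Fin.sum_univ_two]
  have h1 : ((g.1.mulVec m 1 : ℤ) : ℂ) = ((g 1 0 : ℤ) : ℂ) * (m 0 : ℂ) + ((g 1 1 : ℤ) : ℂ) * (m 1 : ℂ) := by
    simp [Matrix.mulVec, dotProduct, Fin.sum_univ_two]
  unfold v
  rw [h0, h1]
  exact E_slash_SL n hh g (m 0) (m 1) z UpperHalfPlane.I

/-- Upper-triangular substitution. -/
theorem E_UT {n : ℕ} {h : ℍ → ℂ} (hh : Nice n h) (a b d : ℤ) (ha : 0 < a) (hd : 0 < d)
    (m : Fin 2 → ℤ) (z : ℍ) :
    E n (h ∣[(n : ℤ) + 2] UT a b d ha hd) (m 0) (m 1) z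
      = E n h ((a * m 0 + b * m 1 : ℤ) : ℂ) ((d * m 1 : ℤ) : ℂ) (UT a b d ha hd • z) := by
  have := E_slash_UT n hh.isAdm a b d ha hd (m 0 : ℂ) (m 1 : ℂ) z
  rw [show ((a * m 0 + b * m 1 : ℤ) : ℂ) = (a : ℂ) * (m 0 : ℂ) + (b : ℂ) * (m 1 : ℂ) by push_cast; ring,
    show ((d * m 1 : ℤ) : ℂ) = (d : ℂ) * (m 1 : ℂ) by push_cast; ring]
  exact this.symm

/-- Separation: if all periods of a cusp form vanish, the form is zero. -/
theorem eq_zero_of_forall_v_eq_zero {N : ℕ} [NeZero N] (n : ℕ)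
    (f : CuspForm (Gamma0 N) ((n : ℤ) + 2))
    (hv : ∀ (g : SL(2, ℤ)) (m : Fin 2 → ℤ), v n ⇑f g m = 0) : f = 0 := by
  refine eq_zero_of_forall_E_slash_eq_of_isAdm N n f (isAdm_cuspForm_slash N _ f) ?_
  intro g x y z
  have h := E_const (nice_cuspForm N n f) g ![x, y] z
  rw [hv g ![x, y]] at h
  have h0 : ((g.1.mulVec ![x, y] 0 : ℤ) : ℂ)
      = ((g 0 0 : ℤ) : ℂ) * (x : ℂ) + ((g 0 1 : ℤ) : ℂ) * (y : ℂ) := by
    simp [Matrix.mulVec, dotProduct, Fin.sum_univ_two]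
  have h1 : ((g.1.mulVec ![x, y] 1 : ℤ) : ℂ)
      = ((g 1 0 : ℤ) : ℂ) * (x : ℂ) + ((g 1 1 : ℤ) : ℂ) * (y : ℂ) := by
    simp [Matrix.mulVec, dotProduct, Fin.sum_univ_two]
  rw [h0, h1] at h
  simpa using h

end

end Fermat.Agent.S22
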