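import Mathlib
import Fermat.Prelude.Def_CuspForm_HeckeAlgebra
import Fermat.Agent.S22.Interface

/-!
# S22: cocycle relation, word induction and finiteness of the period lattice
-/

open UpperHalfPlane ModularForm CongruenceSubgroup
open scoped MatrixGroups ModularForm

namespace Fermat.Agent.S22

noncomputable section

/-- `T = !![1, 1; 0, 1]` as an upper triangular matrix. -/
theorem T_eq_UT : ((ModularGroup.T : SL(2, ℤ)) : GL (Fin 2) ℝ) = UT 1 1 1 one_pos one_pos := by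
  ext i j
  fin_cases i <;> fin_cases j <;> simp [UT, ModularGroup.T]

theorem slash_T_eq (n : ℕ) (h : ℍ → ℂ) :
    (h ∣[(n : ℤ) + 2] (ModularGroup.T : SL(2, ℤ))) = h ∣[(n : ℤ) + 2] UT 1 1 1 one_pos one_pos := by
  rw [ModularForm.SL_slash]
  rw [← T_eq_UT]

theorem smul_T_eq (z : ℍ) :
    (ModularGroup.T : SL(2, ℤ)) • z = UT 1 1 1 one_pos one_pos • z := by
  rw [← T_eq_UT]
  rfl

theorem T_mulVec_zero (m : Fin 2 → ℤ) :
    (ModularGroup.T : SL(2, ℤ)).1.mulVec m 0 = 1 * m 0 + 1 * m 1 := by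
  simp [ModularGroup.T, Matrix.mulVec, dotProduct, Fin.sum_univ_two]

theorem T_mulVec_one (m : Fin 2 → ℤ) :
    (ModularGroup.T : SL(2, ℤ)).1.mulVec m 1 = 1 * m 1 := by
  simp [ModularGroup.T, Matrix.mulVec, dotProduct, Fin.sum_univ_two]

theorem v_def (n : ℕ) (h : ℍ → ℂ) (g : SL(2, ℤ)) (m : Fin 2 → ℤ) :
    v n h g m = E n h ((g.1.mulVec m 0 : ℤ) : ℂ) ((g.1.mulVec m 1 : ℤ) : ℂ) (g • UpperHalfPlane.I)
      - E n (h ∣[(n : ℤ) + 2] g) (m 0) (m 1) UpperHalfPlane.I := rfl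

theorem v_T {n : ℕ} {h : ℍ → ℂ} (hh : Nice n h) (m : Fin 2 → ℤ) :
    v n h ModularGroup.T m = 0 := by
  have h1 := E_UT hh 1 1 1 one_pos one_pos m UpperHalfPlane.I
  rw [v_def, slash_T_eq, smul_T_eq, h1, T_mulVec_zero, T_mulVec_one, sub_self]

/-- The cocycle relation. -/
theorem v_mul {n : ℕ} {h : ℍ → ℂ} (hh : Nice n h) (g₁ g₂ : SL(2, ℤ)) (m : Fin 2 → ℤ) :
    v n h (g₁ * g₂) m = v n h g₁ (g₂.1.mulVec m) + v n (h ∣[(n : ℤ) + 2] g₁) g₂ m := by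
  have h1 := E_const hh g₁ (g₂.1.mulVec m) (g₂ • UpperHalfPlane.I)
  have hmv : (g₁ * g₂).1.mulVec m = g₁.1.mulVec (g₂.1.mulVec m) := by
    rw [Matrix.SpecialLinearGroup.coe_mul, Matrix.mulVec_mulVec]
  have hsl : h ∣[(n : ℤ) + 2] (g₁ * g₂) = (h ∣[(n : ℤ) + 2] g₁) ∣[(n : ℤ) + 2] g₂ :=
    SlashAction.slash_mul _ _ _ _
  have hz : (g₁ * g₂) • UpperHalfPlane.I = g₁ • (g₂ • UpperHalfPlane.I) := mul_smul _ _ _
  rw [← h1, v_def, v_def, hmv, hsl, hz]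
  ring

end

end Fermat.Agent.S22
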