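import Mathlib
import Fermat.Prelude.Def_CuspForm_HeckeAlgebra
import Fermat.Agent.S22.Interface
import Fermat.Agent.S22.Cocycle

/-!
# S22: the period functionals and the period lattice
-/

open UpperHalfPlane ModularForm CongruenceSubgroup
open scoped MatrixGroups ModularForm

namespace Fermat.Agent.S22

noncomputable section

theorem E_add' {n : ℕ} {h₁ h₂ : ℍ → ℂ} (h1 : Nice n h₁) (h2 : Nice n h₂) (x y : ℂ) (z : ℍ) :
    E n (h₁ + h₂) x y z = E n h₁ x y z + E n h₂ x y z := by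
  unfold E
  rw [← Finset.sum_add_distrib]
  refine Finset.sum_congr rfl fun r hr => ?_
  rw [P_add' h1 h2 (Nat.lt_succ_iff.mp (Finset.mem_range.mp hr))]
  ring

theorem E_smul' {n : ℕ} {h : ℍ → ℂ} (hh : Nice n h) (c : ℂ) (x y : ℂ) (z : ℍ) :
    E n (c • h) x y z = c * E n h x y z := by
  unfold E
  rw [Finset.mul_sum]
  refine Finset.sum_congr rfl fun r hr => ?_
  rw [P_smul' hh c (Nat.lt_succ_iff.mp (Finset.mem_range.mp hr))]
  ring

theorem v_add {n : ℕ} {h₁ h₂ : ℍ → ℂ} (h1 : Nice n h₁) (h2 : Nice n h₂) (g : SL(2, ℤ))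
    (m : Fin 2 → ℤ) : v n (h₁ + h₂) g m = v n h₁ g m + v n h₂ g m := by
  rw [v_def, v_def, v_def, SlashAction.add_slash, E_add' h1 h2,
    E_add' (h1.slash_SL g) (h2.slash_SL g)]
  ring

theorem v_smul {n : ℕ} {h : ℍ → ℂ} (hh : Nice n h) (c : ℂ) (g : SL(2, ℤ))
    (m : Fin 2 → ℤ) : v n (c • h) g m = c * v n h g m := by
  rw [v_def, v_def, ModularForm.SL_smul_slash, E_smul' hh, E_smul' (hh.slash_SL g)]
  ring

variable (N : ℕ) [NeZero N] (n : ℕ)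

/-- The period functional `f ↦ v n (f ∣ g₀) g m` on cusp forms. -/
def vfun (g₀ g : SL(2, ℤ)) (m : Fin 2 → ℤ) :
    Module.Dual ℂ (CuspForm (Gamma0 N) ((n : ℤ) + 2)) where
  toFun f := v n (⇑f ∣[(n : ℤ) + 2] g₀) g m
  map_add' f₁ f₂ := by
    rw [CuspForm.coe_add, SlashAction.add_slash]
    exact v_add ((nice_cuspForm' n f₁).slash_SL g₀) ((nice_cuspForm' n f₂).slash_SL g₀) g m
  map_smul' c f := by
    rw [CuspForm.IsGLPos.coe_smul, ModularForm.SL_smul_slash, RingHom.id_apply, smul_eq_mul]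
    exact v_smul ((nice_cuspForm' n f).slash_SL g₀) c g m

theorem vfun_apply (g₀ g : SL(2, ℤ)) (m : Fin 2 → ℤ) (f : CuspForm (Gamma0 N) ((n : ℤ) + 2)) :
    vfun N n g₀ g m f = v n (⇑f ∣[(n : ℤ) + 2] g₀) g m := rfl

/-- The functional `f ↦ P r (f ∣ g) I`. -/
def pfun (r : Fin (n + 1)) (g : SL(2, ℤ)) :
    Module.Dual ℂ (CuspForm (Gamma0 N) ((n : ℤ) + 2)) where
  toFun f := P r (⇑f ∣[(n : ℤ) + 2] g) UpperHalfPlane.I
  map_add' f₁ f₂ := by
    rw [CuspForm.coe_add, SlashAction.add_slash]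
    exact P_add' ((nice_cuspForm' n f₁).slash_SL g) ((nice_cuspForm' n f₂).slash_SL g)
      (Nat.lt_succ_iff.mp r.2) _
  map_smul' c f := by
    rw [CuspForm.IsGLPos.coe_smul, ModularForm.SL_smul_slash, RingHom.id_apply, smul_eq_mul]
    exact P_smul' ((nice_cuspForm' n f).slash_SL g) c (Nat.lt_succ_iff.mp r.2) _

theorem pfun_apply (r : Fin (n + 1)) (g : SL(2, ℤ)) (f : CuspForm (Gamma0 N) ((n : ℤ) + 2)) :
    pfun N n r g f = P r (⇑f ∣[(n : ℤ) + 2] g) UpperHalfPlane.I := rfl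


/-! ### Word induction -/

theorem v_one {n : ℕ} {h : ℍ → ℂ} (hh : Nice n h) (m : Fin 2 → ℤ) : v n h 1 m = 0 := by
  have h1 := v_mul hh 1 1 m
  have e1 : (1 : SL(2, ℤ)).1.mulVec m = m := by simp
  have e2 : h ∣[(n : ℤ) + 2] (1 : SL(2, ℤ)) = h := SlashAction.slash_one _ _
  rw [mul_one, e1, e2] at h1
  simpa using h1

theorem vfun_one (g₀ : SL(2, ℤ)) (m : Fin 2 → ℤ) : vfun N n g₀ 1 m = 0 := by
  ext f
  rw [vfun_apply, v_one ((nice_cuspForm' n f).slash_SL g₀)]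
  rfl

theorem vfun_T (g₀ : SL(2, ℤ)) (m : Fin 2 → ℤ) : vfun N n g₀ ModularGroup.T m = 0 := by
  ext f
  rw [vfun_apply, v_T ((nice_cuspForm' n f).slash_SL g₀)]
  rfl

theorem vfun_mul (g₀ g₁ g₂ : SL(2, ℤ)) (m : Fin 2 → ℤ) :
    vfun N n g₀ (g₁ * g₂) m = vfun N n g₀ g₁ (g₂.1.mulVec m) + vfun N n (g₀ * g₁) g₂ m := by
  ext f
  rw [LinearMap.add_apply, vfun_apply, vfun_apply, vfun_apply,
    v_mul ((nice_cuspForm' n f).slash_SL g₀), SlashAction.slash_mul]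

theorem vfun_inv (g₀ g : SL(2, ℤ)) (m : Fin 2 → ℤ) :
    vfun N n g₀ g⁻¹ m = - vfun N n (g₀ * g⁻¹) g (g⁻¹.1.mulVec m) := by
  have h1 := vfun_mul N n g₀ g⁻¹ g (g⁻¹.1.mulVec m)
  have e : g.1.mulVec (g⁻¹.1.mulVec m) = m := by
    rw [Matrix.mulVec_mulVec, ← Matrix.SpecialLinearGroup.coe_mul, mul_inv_cancel]
    simp
  rw [inv_mul_cancel, vfun_one, e] at h1
  exact eq_neg_of_add_eq_zero_left h1.symm

/-- The `ℤ`-span of the `S`-periods of all translates. -/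
def latticeS : Submodule ℤ (Module.Dual ℂ (CuspForm (Gamma0 N) ((n : ℤ) + 2))) :=
  Submodule.span ℤ (Set.range fun p : SL(2, ℤ) × (Fin 2 → ℤ) => vfun N n p.1 ModularGroup.S p.2)

theorem vfun_mem_latticeS (g₀ g : SL(2, ℤ)) (m : Fin 2 → ℤ) :
    vfun N n g₀ g m ∈ latticeS N n := by
  have hg : g ∈ Subgroup.closure ({ModularGroup.S, ModularGroup.T} : Set SL(2, ℤ)) := by
    rw [SpecialLinearGroup.SL2Z_generators]; trivial
  induction hg using Subgroup.closure_induction generalizing g₀ m with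
  | mem x hx =>
    rcases hx with rfl | rfl
    · exact Submodule.subset_span ⟨(g₀, m), rfl⟩
    · rw [vfun_T]; exact Submodule.zero_mem _
  | one => rw [vfun_one]; exact Submodule.zero_mem _
  | mul x y _ _ hx hy =>
    rw [vfun_mul]
    exact Submodule.add_mem _ (hx _ _) (hy _ _)
  | inv x _ hx =>
    rw [vfun_inv]
    exact Submodule.neg_mem _ (hx _ _)


/-! ### Expansion of the `S`-periods and finiteness -/

theorem S_smul_I : (ModularGroup.S : SL(2, ℤ)) • UpperHalfPlane.I = UpperHalfPlane.I := by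
  rw [UpperHalfPlane.modular_S_smul]
  ext
  simp [UpperHalfPlane.I]

theorem S_mulVec_zero (m : Fin 2 → ℤ) : (ModularGroup.S : SL(2, ℤ)).1.mulVec m 0 = - m 1 := by
  simp [ModularGroup.S, Matrix.mulVec, dotProduct, Fin.sum_univ_two]

theorem S_mulVec_one (m : Fin 2 → ℤ) : (ModularGroup.S : SL(2, ℤ)).1.mulVec m 1 = m 0 := by
  simp [ModularGroup.S, Matrix.mulVec, dotProduct, Fin.sum_univ_two]

/-- The `ℤ`-span of the functionals `f ↦ P r (f ∣ g) I`. -/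
def latticeP : Submodule ℤ (Module.Dual ℂ (CuspForm (Gamma0 N) ((n : ℤ) + 2))) :=
  Submodule.span ℤ (Set.range fun p : Fin (n + 1) × SL(2, ℤ) => pfun N n p.1 p.2)

theorem vfun_S_eq (g₀ : SL(2, ℤ)) (m : Fin 2 → ℤ) :
    vfun N n g₀ ModularGroup.S m =
      ∑ r : Fin (n + 1), ((n.choose r : ℤ) * (- m 1) ^ (n - r) * (- m 0) ^ (r : ℕ)) • pfun N n r g₀
      - ∑ r : Fin (n + 1),
          ((n.choose r : ℤ) * (m 0) ^ (n - r) * (- m 1) ^ (r : ℕ)) • pfun N n r (g₀ * ModularGroup.S) := by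
  ext f
  rw [vfun_apply, v_def, S_smul_I, S_mulVec_zero, S_mulVec_one, LinearMap.sub_apply,
    LinearMap.sum_apply, LinearMap.sum_apply]
  unfold E
  rw [Finset.sum_range, Finset.sum_range]
  congr 1
  · refine Finset.sum_congr rfl fun r _ => ?_
    rw [LinearMap.smul_apply, pfun_apply, zsmul_eq_mul]
    push_cast
    ring
  · refine Finset.sum_congr rfl fun r _ => ?_
    rw [LinearMap.smul_apply, pfun_apply, zsmul_eq_mul, SlashAction.slash_mul]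
    push_cast
    ring

theorem latticeS_le_latticeP : latticeS N n ≤ latticeP N n := by
  refine Submodule.span_le.mpr ?_
  rintro _ ⟨⟨g₀, m⟩, rfl⟩
  show vfun N n g₀ ModularGroup.S m ∈ latticeP N n
  rw [vfun_S_eq]
  refine Submodule.sub_mem _ (Submodule.sum_mem _ fun r _ => ?_) (Submodule.sum_mem _ fun r _ => ?_)
  · exact Submodule.smul_mem _ _ (Submodule.subset_span ⟨(r, g₀), rfl⟩)
  · exact Submodule.smul_mem _ _ (Submodule.subset_span ⟨(r, g₀ * ModularGroup.S), rfl⟩)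

theorem slash_Gamma0_mul (f : CuspForm (Gamma0 N) ((n : ℤ) + 2)) {γ : SL(2, ℤ)}
    (hγ : γ ∈ Gamma0 N) (g : SL(2, ℤ)) :
    ⇑f ∣[(n : ℤ) + 2] (γ * g) = ⇑f ∣[(n : ℤ) + 2] g := by
  rw [SlashAction.slash_mul]
  congr 1
  rw [ModularForm.SL_slash]
  exact SlashInvariantForm.slash_action_eqn f _ ⟨γ, hγ, rfl⟩

theorem pfun_Gamma0_mul (r : Fin (n + 1)) {γ : SL(2, ℤ)} (hγ : γ ∈ Gamma0 N) (g : SL(2, ℤ)) :
    pfun N n r (γ * g) = pfun N n r g := by
  ext f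
  rw [pfun_apply, pfun_apply, slash_Gamma0_mul N n f hγ]

theorem finite_range_pfun :
    (Set.range fun p : Fin (n + 1) × SL(2, ℤ) => pfun N n p.1 p.2).Finite := by
  classical
  -- factor through `Fin (n+1) × (SL(2,ℤ) ⧸ Γ₀(N))` via `g ↦ g⁻¹`
  let F : Fin (n + 1) × (SL(2, ℤ) ⧸ Gamma0 N) →
      Module.Dual ℂ (CuspForm (Gamma0 N) ((n : ℤ) + 2)) :=
    fun p => pfun N n p.1 (p.2.out)⁻¹
  have hsub : (Set.range fun p : Fin (n + 1) × SL(2, ℤ) => pfun N n p.1 p.2) ⊆ Set.range F := by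
    rintro _ ⟨⟨r, g⟩, rfl⟩
    refine ⟨(r, (QuotientGroup.mk g⁻¹ : SL(2, ℤ) ⧸ Gamma0 N)), ?_⟩
    show pfun N n r ((QuotientGroup.mk g⁻¹ : SL(2, ℤ) ⧸ Gamma0 N).out)⁻¹ = pfun N n r g
    have h1 : (g⁻¹)⁻¹ * (QuotientGroup.mk g⁻¹ : SL(2, ℤ) ⧸ Gamma0 N).out ∈ Gamma0 N :=
      QuotientGroup.eq.mp (QuotientGroup.out_eq' _).symm
    have h2 : ((g⁻¹)⁻¹ * (QuotientGroup.mk g⁻¹ : SL(2, ℤ) ⧸ Gamma0 N).out)⁻¹ ∈ Gamma0 N :=
      inv_mem h1
    have h3 := pfun_Gamma0_mul N n r h2 g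
    rw [← h3]
    congr 1
    group
  exact (Set.finite_range F).subset hsub

theorem latticeP_fg : (latticeP N n).FG :=
  Submodule.fg_span (finite_range_pfun N n)

end

end Fermat.Agent.S22
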