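import Mathlib
import Fermat.Prelude.Def_CuspForm_HeckeAlgebra
import Fermat.Agent.S22.Interface
import Fermat.Agent.S22.Cocycle
import Fermat.Agent.S22.Lattice
import Fermat.Agent.S22.Hermite
import Fermat.Agent.S22.AbstractFinite

/-!
# S22: Hecke stability of the period lattice and the final finiteness statement (weight ≥ 2)
-/

open UpperHalfPlane ModularForm CongruenceSubgroup
open scoped MatrixGroups ModularForm

namespace Fermat.Agent.S22

noncomputable section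

theorem SL_smul_eq_GL_smul (g : SL(2, ℤ)) (z : ℍ) : g • z = (g : GL (Fin 2) ℝ) • z := rfl

theorem smul_smul_of_mul_eq {A B : GL (Fin 2) ℝ} {g g' : SL(2, ℤ)}
    (h : A * (g : GL (Fin 2) ℝ) = (g' : GL (Fin 2) ℝ) * B) (z : ℍ) :
    A • (g • z) = g' • (B • z) := by
  rw [SL_smul_eq_GL_smul, SL_smul_eq_GL_smul, ← mul_smul, ← mul_smul, h]

theorem slash_slash_of_mul_eq (k : ℤ) {A B : GL (Fin 2) ℝ} {g g' : SL(2, ℤ)}
    (h : A * (g : GL (Fin 2) ℝ) = (g' : GL (Fin 2) ℝ) * B) (f : ℍ → ℂ) :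
    (f ∣[k] A) ∣[k] g = (f ∣[k] g') ∣[k] B := by
  rw [ModularForm.SL_slash, ModularForm.SL_slash, ← SlashAction.slash_mul,
    ← SlashAction.slash_mul, h]

theorem UT_mul_eq_of_hermite {a b d a' b' d' : ℤ} (ha : 0 < a) (hd : 0 < d) (ha' : 0 < a')
    (hd' : 0 < d') {g g' : SL(2, ℤ)}
    (hGL : ∀ (h : (a : ℝ) * (d : ℝ) ≠ 0) (h' : (a' : ℝ) * (d' : ℝ) ≠ 0),
        ModularForm.upperTriangularGL (a : ℝ) (b : ℝ) (d : ℝ) h *
            Matrix.SpecialLinearGroup.mapGL ℝ g =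
          Matrix.SpecialLinearGroup.mapGL ℝ g' *
            ModularForm.upperTriangularGL (a' : ℝ) (b' : ℝ) (d' : ℝ) h') :
    UT a b d ha hd * (g : GL (Fin 2) ℝ) = (g' : GL (Fin 2) ℝ) * UT a' b' d' ha' hd' :=
  hGL _ _

theorem UT_mulVec_zero (a b d : ℤ) (m : Fin 2 → ℤ) :
    (!![a, b; 0, d] : Matrix (Fin 2) (Fin 2) ℤ).mulVec m 0 = a * m 0 + b * m 1 := by
  simp [Matrix.mulVec, dotProduct, Fin.sum_univ_two]

theorem UT_mulVec_one (a b d : ℤ) (m : Fin 2 → ℤ) :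
    (!![a, b; 0, d] : Matrix (Fin 2) (Fin 2) ℤ).mulVec m 1 = d * m 1 := by
  simp [Matrix.mulVec, dotProduct, Fin.sum_univ_two]

/-- Slashing with an upper triangular integral matrix moves periods to periods. -/
theorem exists_v_slash_UT (n : ℕ) (a b d : ℤ) (ha : 0 < a) (hd : 0 < d) (g : SL(2, ℤ))
    (m : Fin 2 → ℤ) :
    ∃ (g' : SL(2, ℤ)) (m' : Fin 2 → ℤ), ∀ h : ℍ → ℂ, Nice n h →
      v n (h ∣[(n : ℤ) + 2] UT a b d ha hd) g m = v n h g' m' := by
  obtain ⟨g', a', b', d', ha', hd', -, hmat, hGL⟩ := hermite a b d ha hd g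
  have hGL' := UT_mul_eq_of_hermite ha hd ha' hd' hGL
  refine ⟨g', (!![a', b'; 0, d'] : Matrix (Fin 2) (Fin 2) ℤ).mulVec m, fun h hh => ?_⟩
  -- the integer identity on vectors
  have hvec : (!![a, b; 0, d] : Matrix (Fin 2) (Fin 2) ℤ).mulVec (g.1.mulVec m)
      = g'.1.mulVec ((!![a', b'; 0, d'] : Matrix (Fin 2) (Fin 2) ℤ).mulVec m) := by
    rw [Matrix.mulVec_mulVec, Matrix.mulVec_mulVec, hmat]
  have hvec0 := congrFun hvec 0
  have hvec1 := congrFun hvec 1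
  rw [UT_mulVec_zero] at hvec0
  rw [UT_mulVec_one] at hvec1
  have h1 := E_UT hh a b d ha hd (g.1.mulVec m) (g • UpperHalfPlane.I)
  have h5 := E_UT (hh.slash_SL g') a' b' d' ha' hd' m UpperHalfPlane.I
  have h6 := E_const hh g' ((!![a', b'; 0, d'] : Matrix (Fin 2) (Fin 2) ℤ).mulVec m)
    (UT a' b' d' ha' hd' • UpperHalfPlane.I)
  rw [UT_mulVec_zero, UT_mulVec_one] at h6
  rw [v_def, h1, slash_slash_of_mul_eq _ hGL', h5, hvec0, hvec1, smul_smul_of_mul_eq hGL']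
  exact h6


/-! ### Additivity of periods over finite sums -/

theorem v_zero (n : ℕ) (g : SL(2, ℤ)) (m : Fin 2 → ℤ) : v n (0 : ℍ → ℂ) g m = 0 := by
  have h := v_smul (nice_zero n) 0 g m
  rwa [zero_smul, zero_mul] at h

theorem v_sum {n : ℕ} {ι : Type*} (s : Finset ι) (H : ι → ℍ → ℂ) (hH : ∀ i ∈ s, Nice n (H i))
    (g : SL(2, ℤ)) (m : Fin 2 → ℤ) :
    v n (∑ i ∈ s, H i) g m = ∑ i ∈ s, v n (H i) g m := by
  classical
  induction s using Finset.induction_on with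
  | empty => simp [v_zero]
  | insert a s ha ih =>
    rw [Finset.sum_insert ha, Finset.sum_insert ha,
      v_add (hH a (Finset.mem_insert_self a s))
        (nice_sum s H fun i hi => hH i (Finset.mem_insert_of_mem hi)),
      ih fun i hi => hH i (Finset.mem_insert_of_mem hi)]

/-! ### The Hecke matrices are upper triangular -/

theorem heckeMatrix_eq_UT {p : ℕ} (hp : 0 < p) (j : ℕ) :
    ModularForm.heckeMatrix p j = UT 1 (j : ℤ) (p : ℤ) one_pos (by exact_mod_cast hp) := by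
  apply Matrix.GeneralLinearGroup.ext
  intro i k
  rw [ModularForm.val_heckeMatrix hp.ne', UT_val]
  simp

theorem heckeDiagMatrix_eq_UT {p : ℕ} (hp : 0 < p) :
    ModularForm.heckeDiagMatrix p = UT (p : ℤ) 0 1 (by exact_mod_cast hp) one_pos := by
  apply Matrix.GeneralLinearGroup.ext
  intro i k
  rw [ModularForm.val_heckeDiagMatrix hp.ne', UT_val]
  simp

/-! ### The period lattice -/

variable (N : ℕ) [NeZero N] (n : ℕ)

/-- The period lattice: the `ℤ`-span of all period functionals `f ↦ v n f g m`. -/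
def lattice : Submodule ℤ (Module.Dual ℂ (CuspForm (Gamma0 N) ((n : ℤ) + 2))) :=
  Submodule.span ℤ (Set.range fun p : SL(2, ℤ) × (Fin 2 → ℤ) => vfun N n 1 p.1 p.2)

theorem vfun_one_apply (g : SL(2, ℤ)) (m : Fin 2 → ℤ) (f : CuspForm (Gamma0 N) ((n : ℤ) + 2)) :
    vfun N n 1 g m f = v n ⇑f g m := by
  rw [vfun_apply, SlashAction.slash_one]

theorem lattice_le_latticeP : lattice N n ≤ latticeP N n := by
  refine le_trans (Submodule.span_le.mpr ?_) (latticeS_le_latticeP N n)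
  rintro _ ⟨⟨g, m⟩, rfl⟩
  exact vfun_mem_latticeS N n 1 g m

theorem lattice_fg : (lattice N n).FG := by
  have hnoeth : IsNoetherian ℤ (latticeP N n) :=
    isNoetherian_of_fg_of_noetherian _ (latticeP_fg N n)
  have h1 : ((lattice N n).comap (latticeP N n).subtype).FG := IsNoetherian.noetherian _
  have h2 := h1.map (latticeP N n).subtype
  rwa [Submodule.map_comap_subtype, inf_eq_right.mpr (lattice_le_latticeP N n)] at h2

theorem lattice_separating (f : CuspForm (Gamma0 N) ((n : ℤ) + 2))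
    (hf : ∀ ξ ∈ lattice N n, ξ f = 0) : f = 0 := by
  refine eq_zero_of_forall_v_eq_zero n f fun g m => ?_
  have := hf (vfun N n 1 g m) (Submodule.subset_span ⟨(g, m), rfl⟩)
  rwa [vfun_one_apply] at this

/-- The functional `f ↦ v n (f ∣ UT a b d) g m` is one of the period functionals. -/
theorem exists_vfun_eq_slash_UT (a b d : ℤ) (ha : 0 < a) (hd : 0 < d) (g : SL(2, ℤ))
    (m : Fin 2 → ℤ) :
    ∃ ξ ∈ lattice N n, ∀ f : CuspForm (Gamma0 N) ((n : ℤ) + 2),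
      ξ f = v n (⇑f ∣[(n : ℤ) + 2] UT a b d ha hd) g m := by
  obtain ⟨g', m', h⟩ := exists_v_slash_UT n a b d ha hd g m
  refine ⟨vfun N n 1 g' m', Submodule.subset_span ⟨(g', m'), rfl⟩, fun f => ?_⟩
  rw [vfun_one_apply, h _ (nice_cuspForm' n f)]

theorem v_heckeU_mem {p : ℕ} (hp : 0 < p) (g : SL(2, ℤ)) (m : Fin 2 → ℤ) :
    ∃ ξ ∈ lattice N n, ∀ f : CuspForm (Gamma0 N) ((n : ℤ) + 2),
      ξ f = v n (ModularForm.heckeU ((n : ℤ) + 2) p ⇑f) g m := by
  classical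
  choose ξ hξ hξf using fun j : ℕ =>
    exists_vfun_eq_slash_UT N n 1 (j : ℤ) (p : ℤ) one_pos (by exact_mod_cast hp) g m
  refine ⟨∑ j ∈ Finset.range p, ξ j, Submodule.sum_mem _ fun j _ => hξ j, fun f => ?_⟩
  rw [ModularForm.heckeU_def, v_sum, LinearMap.sum_apply]
  · refine Finset.sum_congr rfl fun j _ => ?_
    rw [hξf j f, heckeMatrix_eq_UT hp]
  · intro j _
    rw [heckeMatrix_eq_UT hp]
    exact (nice_cuspForm' n f).slash_UT _ _ _ _ _

theorem v_heckeT_mem {p : ℕ} (hp : 0 < p) (g : SL(2, ℤ)) (m : Fin 2 → ℤ) :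
    ∃ ξ ∈ lattice N n, ∀ f : CuspForm (Gamma0 N) ((n : ℤ) + 2),
      ξ f = v n (ModularForm.heckeT ((n : ℤ) + 2) p ⇑f) g m := by
  obtain ⟨ξ₁, hξ₁, h1⟩ := v_heckeU_mem N n hp g m
  obtain ⟨ξ₂, hξ₂, h2⟩ :=
    exists_vfun_eq_slash_UT N n (p : ℤ) 0 1 (by exact_mod_cast hp) one_pos g m
  refine ⟨ξ₁ + ξ₂, Submodule.add_mem _ hξ₁ hξ₂, fun f => ?_⟩
  have hU : Nice n (ModularForm.heckeU ((n : ℤ) + 2) p ⇑f) := by
    rw [ModularForm.heckeU_def]
    refine nice_sum _ _ fun j _ => ?_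
    rw [heckeMatrix_eq_UT hp]
    exact (nice_cuspForm' n f).slash_UT _ _ _ _ _
  have hD : Nice n (⇑f ∣[(n : ℤ) + 2] ModularForm.heckeDiagMatrix p) := by
    rw [heckeDiagMatrix_eq_UT hp]
    exact (nice_cuspForm' n f).slash_UT _ _ _ _ _
  rw [ModularForm.heckeT_eq_heckeU_add, v_add hU hD, LinearMap.add_apply, h1 f, h2 f,
    heckeDiagMatrix_eq_UT hp]

/-- The period lattice is stable under the Hecke generators. -/
theorem lattice_stable (S : Set ℕ) :
    ∀ t ∈ CuspForm.heckeGenerators N ((n : ℤ) + 2) S, ∀ ξ ∈ lattice N n, ξ ∘ₗ t ∈ lattice N n := by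
  intro t ht ξ hξ
  induction hξ using Submodule.span_induction with
  | mem ξ hξ =>
    obtain ⟨⟨g, m⟩, rfl⟩ := hξ
    rcases ht with ⟨ℓ, hℓ, hℓN, -, rfl⟩ | ⟨q, hqN, hq, -, rfl⟩
    · obtain ⟨ψ, hψ, h⟩ := v_heckeT_mem N n hℓ.pos g m
      have : vfun N n 1 g m ∘ₗ CuspForm.heckeTLin ((n : ℤ) + 2) hℓ hℓN = ψ := by
        ext f
        rw [LinearMap.comp_apply, vfun_one_apply, h f, CuspForm.coe_heckeTLin_apply]
      rw [this]; exact hψ
    · obtain ⟨ψ, hψ, h⟩ := v_heckeU_mem N n hq.pos g m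
      have : vfun N n 1 g m ∘ₗ CuspForm.heckeULin ((n : ℤ) + 2) hqN = ψ := by
        ext f
        rw [LinearMap.comp_apply, vfun_one_apply, h f, CuspForm.coe_heckeULin_apply]
      rw [this]; exact hψ
  | zero => rw [LinearMap.zero_comp]; exact Submodule.zero_mem _
  | add x y _ _ hx hy => rw [LinearMap.add_comp]; exact Submodule.add_mem _ hx hy
  | smul a x _ hx => rw [LinearMap.smul_comp]; exact Submodule.smul_mem _ _ hx

/-- **S22 for weight `n + 2`.** -/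
theorem heckeAlgebra_finite_of_weight_add_two (S : Set ℕ) :
    Module.Finite ℤ (CuspForm.heckeAlgebra N ((n : ℤ) + 2) S) :=
  finite_adjoin_of_stable_lattice (lattice N n) (lattice_fg N n) (lattice_separating N n)
    (CuspForm.heckeGenerators N ((n : ℤ) + 2) S) (lattice_stable N n S)

end

end Fermat.Agent.S22
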